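/-
S33 / (NC), local-field layer, part 2: Kummer normal forms over `K^unr = Qb^I` and the two cyclic
ramification computations.

`P` a valuation subring of `Qb` over an odd prime `p`, `ζ` a primitive `p`-th root of unity,
`λ = ζ − 1`.
* `kummer_normal_form` : if `b^p` is fixed by inertia then, up to an inertia-fixed scalar,
  `b^p = 1 + p a` ("peu") or `(b^j)^p = p · unit` for some `0 < j < p` ("très");
* `val_eq_one_of_apply_ne` : in the "peu" case `a` is a unit as soon as `b ∉ K^unr(ζ)`;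
* `val_peu_unif`, `val_apply_sub_peu` : `w' = λ/(b − 1)` has `v(w')^(p(p−1)) = v(p)` and
  `v(σ w' − w') = v(w')²`;
* `val_tres_unif`, `val_apply_sub_tres` : `w' = λ/b` has `v(w')^(p(p−1)) = v(p)` and
  `v(σ w' − w') = v(w')^(p+1)`.
-/
import Mathlib
import Fermat.Agent.TW.Flat.Local.MonoFinal
import Fermat.Agent.TW.Flat.Local.Unr
import Fermat.Agent.TW.Flat.Local.CloseRoot

set_option autoImplicit false

namespace Fermat.Agent.Padic.S33.LocKum

open Fermat.Agent.S53 Fermat.Agent.TW.Flat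

local notation "Qb" => AlgebraicClosure ℚ

/-- Fixed by the inertia group of `P`. -/
def IFix (P : ValuationSubring Qb) (x : Qb) : Prop := ∀ σ ∈ P.inertiaSubgroupIn ℚ, σ x = x

section IFix

variable {P : ValuationSubring Qb} {x y : Qb}

theorem IFix.mul (hx : IFix P x) (hy : IFix P y) : IFix P (x * y) := fun σ hσ => by
  rw [map_mul, hx σ hσ, hy σ hσ]

theorem IFix.add (hx : IFix P x) (hy : IFix P y) : IFix P (x + y) := fun σ hσ => by
  rw [map_add, hx σ hσ, hy σ hσ]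

theorem IFix.sub (hx : IFix P x) (hy : IFix P y) : IFix P (x - y) := fun σ hσ => by
  rw [map_sub, hx σ hσ, hy σ hσ]

theorem IFix.div (hx : IFix P x) (hy : IFix P y) : IFix P (x / y) := fun σ hσ => by
  rw [map_div₀, hx σ hσ, hy σ hσ]

theorem IFix.pow (hx : IFix P x) (n : ℕ) : IFix P (x ^ n) := fun σ hσ => by
  rw [map_pow, hx σ hσ]

theorem IFix.zpow (hx : IFix P x) (n : ℤ) : IFix P (x ^ n) := fun σ hσ => by
  rw [map_zpow₀, hx σ hσ]

theorem IFix.one : IFix P 1 := fun σ _ => map_one σ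

theorem IFix.zero : IFix P 0 := fun σ _ => map_zero σ

theorem IFix.natCast (n : ℕ) : IFix P (n : Qb) := fun σ _ => map_natCast σ n

end IFix

section Basic

variable {p : ℕ} [Fact p.Prime] {P : ValuationSubring Qb}

omit [Fact p.Prime] in
theorem val_p_lt_one (hP : P.LiesOverPrime p) : P.valuation (p : Qb) < 1 :=
  P.mem_nonunits_iff.mp hP

omit [Fact p.Prime] in
theorem p_ne_zero' (hp : p.Prime) : (p : Qb) ≠ 0 := Nat.cast_ne_zero.mpr hp.ne_zero

theorem val_p_pos : (0 : P.ValueGroup) < P.valuation (p : Qb) :=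
  zero_lt_iff.2 ((Valuation.ne_zero_iff _).2 (p_ne_zero' (Fact.out : p.Prime)))

theorem isPrimitiveRoot_of {ζ : Qb} (hζ : ζ ^ p = 1) (hζ1 : ζ ≠ 1) : IsPrimitiveRoot ζ p := by
  have h := IsPrimitiveRoot.orderOf ζ
  rwa [orderOf_eq_prime hζ hζ1] at h

theorem val_zeta_eq_one {ζ : Qb} (hζ : ζ ^ p = 1) : P.valuation ζ = 1 := by
  have hp : p.Prime := Fact.out
  have h1 : P.valuation ζ ^ p = 1 := by rw [← map_pow, hζ, map_one]
  exact (pow_eq_one_iff.mp h1).resolve_right hp.ne_zero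

theorem val_zeta_pow_sub_one {ζ : Qb} (hζ : ζ ^ p = 1) (hζ1 : ζ ≠ 1) {j : ℕ} (hj : ¬ p ∣ j) :
    P.valuation (ζ ^ j - 1) = P.valuation (ζ - 1) := by
  rw [Valuation.map_sub_swap, Fermat.Agent.TW.KummerP.val_one_sub_pow_eq P.valuation
    (Fact.out : p.Prime) (isPrimitiveRoot_of hζ hζ1) hj, Valuation.map_sub_swap]

/-- An inertia-fixed element of the maximal ideal is divisible by `p`. -/
theorem exists_eq_p_mul (hP : P.LiesOverPrime p) {t : Qb} (ht : IFix P t)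
    (hv : P.valuation t < 1) : ∃ a ∈ P, IFix P a ∧ t = p * a := by
  have hp : p.Prime := Fact.out
  have hp0 : (p : Qb) ≠ 0 := p_ne_zero' hp
  rcases eq_or_ne t 0 with rfl | ht0
  · exact ⟨0, P.zero_mem, IFix.zero, by simp⟩
  obtain ⟨n, hn⟩ := Loc.Basic.unr p P hP t ht0 ht
  have h1 := (Loc.Basic.isPUnit_iff_valuation_eq_one P _).1 hn
  rw [map_div₀, map_zpow₀] at h1
  have hpos : (0 : P.ValueGroup) < P.valuation (p : Qb) := val_p_pos
  have hvt : P.valuation t = P.valuation (p : Qb) ^ n :=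
    (div_eq_one_iff_eq (zpow_ne_zero n hpos.ne')).1 h1
  rw [hvt, zpow_lt_one_iff_right_of_lt_one₀ hpos (val_p_lt_one hP)] at hv
  refine ⟨t / p, ?_, ht.div (IFix.natCast p), by field_simp⟩
  rw [← P.valuation_le_one_iff, map_div₀, hvt, div_le_one₀ hpos]
  calc P.valuation (p : Qb) ^ n ≤ P.valuation (p : Qb) ^ (1 : ℤ) :=
        zpow_le_zpow_right_of_le_one₀ hpos (val_p_lt_one hP).le hv
    _ = P.valuation (p : Qb) := zpow_one _

/-- An inertia-fixed unit is a `p`-th power of an inertia-fixed unit times `1 + p a`. -/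
theorem exists_pth_root_unit (hP : P.LiesOverPrime p) {ε : Qb} (hε : P.valuation ε = 1)
    (hεI : IFix P ε) :
    ∃ α a : Qb, P.valuation α = 1 ∧ IFix P α ∧ a ∈ P ∧ IFix P a ∧ ε = α ^ p * (1 + p * a) := by
  have hp : p.Prime := Fact.out
  obtain ⟨ζ', m, hm0, hpm, hζm, hmem⟩ := Loc.Basic.teich p P hP ε
    ((Loc.Basic.isPUnit_iff_valuation_eq_one P ε).2 hε)
  have hζ'I : IFix P ζ' := fun σ hσ => Loc.Basic.rootFix p P hP ζ' m hm0 hpm hζm σ hσ
  have hvζ' : P.valuation ζ' = 1 := by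
    have h1 : P.valuation ζ' ^ m = 1 := by rw [← map_pow, hζm, map_one]
    exact (pow_eq_one_iff.mp h1).resolve_right hm0.ne'
  have hζ'0 : ζ' ≠ 0 := by
    rintro rfl
    rw [map_zero] at hvζ'
    exact zero_ne_one hvζ'
  -- a `p`-th root of `ζ'` among its powers
  obtain ⟨α, hα, hαI, hαv⟩ : ∃ α : Qb, α ^ p = ζ' ∧ IFix P α ∧ P.valuation α = 1 := by
    rcases eq_or_ne m 1 with rfl | hm1
    · rw [pow_one] at hζm
      exact ⟨1, by rw [one_pow, hζm], IFix.one, map_one _⟩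
    · have hm1' : 1 < m := by omega
      have hcop : Nat.Coprime p m := (Nat.Prime.coprime_iff_not_dvd hp).2 hpm
      obtain ⟨c, -, hc⟩ := Nat.exists_mul_mod_eq_one_of_coprime hcop hm1'
      refine ⟨ζ' ^ c, ?_, hζ'I.pow c, by rw [map_pow, hvζ', one_pow]⟩
      rw [← pow_mul, mul_comm, pow_eq_pow_mod _ hζm, hc, pow_one]
  have hvt : P.valuation (ε / ζ' - 1) < 1 := by
    have e : ε / ζ' - 1 = (ε - ζ') / ζ' := by field_simp
    rw [e, map_div₀, hvζ', div_one]
    exact P.mem_nonunits_iff.1 hmem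
  obtain ⟨a, haP, haI, ha⟩ := exists_eq_p_mul hP ((hεI.div hζ'I).sub IFix.one) hvt
  refine ⟨α, a, hαv, hαI, haP, haI, ?_⟩
  rw [hα, ← ha]
  field_simp
  ring

/-- **Kummer normal form** over `K^unr`. -/
theorem kummer_normal_form (hP : P.LiesOverPrime p) {b : Qb} (hb0 : b ≠ 0)
    (hbI : IFix P (b ^ p)) :
    (∃ κ a : Qb, κ ≠ 0 ∧ IFix P κ ∧ a ∈ P ∧ IFix P a ∧ (b / κ) ^ p = 1 + p * a) ∨
    (∃ (j : ℕ) (κ ε : Qb), 0 < j ∧ j < p ∧ κ ≠ 0 ∧ IFix P κ ∧ P.valuation ε = 1 ∧ IFix P ε ∧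
        (b ^ j / κ) ^ p = p * ε) := by
  have hp : p.Prime := Fact.out
  have hp0 : (p : Qb) ≠ 0 := p_ne_zero' hp
  have hpI : IFix P (p : Qb) := IFix.natCast p
  obtain ⟨n, hn⟩ := Loc.Basic.unr p P hP (b ^ p) (pow_ne_zero p hb0) hbI
  have hε : P.valuation (b ^ p / (p : Qb) ^ n) = 1 :=
    (Loc.Basic.isPUnit_iff_valuation_eq_one P _).1 hn
  have hεI : IFix P (b ^ p / (p : Qb) ^ n) := hbI.div (hpI.zpow n)
  have hu : b ^ p = (p : Qb) ^ n * (b ^ p / (p : Qb) ^ n) := by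
    field_simp
  generalize b ^ p / (p : Qb) ^ n = ε₀ at hε hεI hu
  have hpZ : ((p : ℕ) : ℤ) ≠ 0 := by exact_mod_cast hp.ne_zero
  have hdecomp : n = (p : ℤ) * (n / p) + n % p := (Int.mul_ediv_add_emod n p).symm
  have hm0 : 0 ≤ n % (p : ℤ) := Int.emod_nonneg n hpZ
  have hmp : n % (p : ℤ) < p := Int.emod_lt_of_pos n (by exact_mod_cast hp.pos)
  rcases eq_or_ne (n % (p : ℤ)) 0 with hm | hm
  · -- peu
    left
    obtain ⟨α, a, hαv, hαI, haP, haI, hαa⟩ := exists_pth_root_unit hP hε hεI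
    have hα0 : α ≠ 0 := by
      rintro rfl
      rw [map_zero] at hαv
      exact zero_ne_one hαv
    refine ⟨(p : Qb) ^ (n / p) * α, a, mul_ne_zero (zpow_ne_zero _ hp0) hα0,
      (hpI.zpow _).mul hαI, haP, haI, ?_⟩
    have hn' : n = (n / (p : ℤ)) * (p : ℤ) := by rw [hm, add_zero, mul_comm] at hdecomp; exact hdecomp
    have e1 : ((p : Qb) ^ (n / (p : ℤ))) ^ p = (p : Qb) ^ n := by
      rw [← zpow_natCast, ← zpow_mul, ← hn']
    rw [div_pow, mul_pow, e1, hu, hαa]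
    have h2 : (p : Qb) ^ n ≠ 0 := zpow_ne_zero _ hp0
    have h3 : α ^ p ≠ 0 := pow_ne_zero _ hα0
    field_simp
  · -- très
    right
    obtain ⟨m', hm'⟩ : ∃ m' : ℕ, (m' : ℤ) = n % (p : ℤ) := ⟨(n % (p : ℤ)).toNat, Int.toNat_of_nonneg hm0⟩
    have hm'0 : 0 < m' := by
      rcases Nat.eq_zero_or_pos m' with h | h
      · exfalso; apply hm; rw [← hm', h]; rfl
      · exact h
    have hm'p : m' < p := by exact_mod_cast hm' ▸ hmp
    have hcop : Nat.Coprime m' p := (Nat.coprime_of_lt_prime hm'0.ne' hm'p hp).symm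
    obtain ⟨j₀, hjp, hj'⟩ := Nat.exists_mul_mod_eq_one_of_coprime hcop hp.one_lt
    have hj0 : 0 < j₀ := by
      rcases Nat.eq_zero_or_pos j₀ with h | h
      · rw [h, mul_zero, Nat.zero_mod] at hj'
        exact absurd hj' (by norm_num)
      · exact h
    have hr : m' * j₀ = p * (m' * j₀ / p) + 1 := by
      have := Nat.div_add_mod (m' * j₀) p
      rw [hj'] at this
      exact this.symm
    generalize m' * j₀ / p = r at hr
    -- exponent identity
    have hexp : n * (j₀ : ℤ) = ((n / (p : ℤ)) * j₀ + r) * (p : ℤ) + 1 := by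
      have hr' : (m' : ℤ) * j₀ = p * r + 1 := by exact_mod_cast hr
      calc n * (j₀ : ℤ) = ((p : ℤ) * (n / p) + n % p) * j₀ := by rw [← hdecomp]
        _ = (p : ℤ) * (n / p) * j₀ + (m' : ℤ) * j₀ := by rw [hm']; ring
        _ = ((n / (p : ℤ)) * j₀ + r) * (p : ℤ) + 1 := by rw [hr']; ring
    refine ⟨j₀, (p : Qb) ^ ((n / (p : ℤ)) * j₀ + r), ε₀ ^ j₀, hj0, hjp, zpow_ne_zero _ hp0,
      hpI.zpow _, by rw [map_pow, hε, one_pow], hεI.pow _, ?_⟩
    have e1 : ((p : Qb) ^ ((n / (p : ℤ)) * j₀ + r)) ^ p * p = (p : Qb) ^ (n * (j₀ : ℤ)) := by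
      rw [← zpow_natCast, ← zpow_mul, hexp, zpow_add₀ hp0, zpow_one]
    have e2 : (b ^ j₀) ^ p = (p : Qb) ^ (n * (j₀ : ℤ)) * ε₀ ^ j₀ := by
      rw [← pow_mul, mul_comm, pow_mul, hu, mul_pow, ← zpow_natCast, ← zpow_mul]
    rw [div_pow, e2, ← e1]
    have h2 : ((p : Qb) ^ ((n / (p : ℤ)) * j₀ + r)) ^ p ≠ 0 := pow_ne_zero _ (zpow_ne_zero _ hp0)
    field_simp

/-- In the "peu" case `b^p = 1 + p a`, `a` is a unit as soon as some inertia element fixing `ζ`
moves `b`. -/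
theorem val_eq_one_of_apply_ne (hp2 : p ≠ 2) (hP : P.LiesOverPrime p) {ζ : Qb} (hζ : ζ ^ p = 1)
    (hζ1 : ζ ≠ 1) {b a : Qb} (hb : b ^ p = 1 + p * a) (haP : a ∈ P) (haI : IFix P a) {σ : GQ}
    (hσ : σ ∈ P.inertiaSubgroupIn ℚ) (hσζ : σ ζ = ζ) (hσb : σ b ≠ b) : P.valuation a = 1 := by
  have hp : p.Prime := Fact.out
  by_contra hne
  have hlt : P.valuation a < 1 := lt_of_le_of_ne ((P.valuation_le_one_iff a).2 haP) hne
  obtain ⟨a', ha'P, -, ha'⟩ := exists_eq_p_mul hP haI hlt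
  have hpP : (p : Qb) ∈ P := (P.valuation_le_one_iff _).1 (val_p_lt_one hP).le
  have hp3 : 3 ≤ p := by
    have := hp.two_le
    omega
  obtain ⟨ζ'', hζ'', -, hfix⟩ := Loc.Close.closeRoot p P hP (p : Qb) (1 + p * a) b hpP
    ⟨(p : Qb) ^ (p - 2), by
      rw [P.mem_nonunits_iff, map_pow]
      exact pow_lt_one₀ zero_le (val_p_lt_one hP) (by omega), by
      rw [← pow_succ']
      congr 1
      omega⟩
    ⟨a', ha'P, by rw [ha']; ring⟩ hb
  have hσD : σ ∈ P.decompositionSubgroup ℚ := Loc.Basic.inertia_le_decomp P hσ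
  have hσu : σ (1 + (p : Qb) * a) = 1 + p * a := by
    rw [map_add, map_one, map_mul, map_natCast, haI σ hσ]
  have h1 := hfix σ hσD hσu
  have hprim : IsPrimitiveRoot ζ p := isPrimitiveRoot_of hζ hζ1
  have : NeZero p := ⟨hp.ne_zero⟩
  obtain ⟨i, -, hi⟩ := hprim.eq_pow_of_pow_eq_one hζ''
  have hσζ'' : σ ζ'' = ζ'' := by rw [← hi, map_pow, hσζ]
  have hζ''0 : ζ'' ≠ 0 := by
    rintro rfl
    rw [zero_pow hp.ne_zero] at hζ''
    exact zero_ne_one hζ''
  rw [map_mul, hσζ''] at h1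
  exact hσb (mul_left_cancel₀ hζ''0 h1)

/-! ### The cyclic "peu" extension -/

/-- `b^p = 1 + p a` with `a` a unit: `v(b − 1)^p = v(p)`. -/
theorem val_sub_one_pow_peu (hP : P.LiesOverPrime p) {b a : Qb} (hb : b ^ p = 1 + p * a)
    (ha1 : P.valuation a = 1) : P.valuation (b - 1) ^ p = P.valuation (p : Qb) := by
  have hp : p.Prime := Fact.out
  have hvp := val_p_lt_one hP
  have hvpa : P.valuation ((p : Qb) * a) < 1 := by rw [map_mul, ha1, mul_one]; exact hvp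
  have hvb : P.valuation b = 1 := by
    have h1 : P.valuation b ^ p = 1 := by
      rw [← map_pow, hb, P.valuation.map_add_eq_of_lt_left (by rw [map_one]; exact hvpa), map_one]
    exact (pow_eq_one_iff.mp h1).resolve_right hp.ne_zero
  have hbP : b ∈ P := (P.valuation_le_one_iff b).1 hvb.le
  obtain ⟨r, hr⟩ := exists_add_pow_prime_eq hp ((⟨b, hbP⟩ : P) - 1) 1
  have hr' : b ^ p = (b - 1) ^ p + 1 + p * (b - 1) * (r : Qb) := by
    have h := congrArg Subtype.val hr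
    push_cast at h
    rw [sub_add_cancel, one_pow, mul_one] at h
    exact h
  have hrP : P.valuation (r : Qb) ≤ 1 := (P.valuation_le_one_iff _).2 r.2
  have hzP : P.valuation (b - 1) ≤ 1 :=
    (P.valuation.map_sub _ _).trans (max_le hvb.le (by rw [map_one]))
  have hz : (b - 1) ^ p = p * (a - (b - 1) * r) := by
    linear_combination hb - hr'
  have hzlt : P.valuation (b - 1) < 1 := by
    by_contra hcon
    have h1 : P.valuation (b - 1) = 1 := le_antisymm hzP (not_lt.1 hcon)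
    have h2 : P.valuation ((b - 1) ^ p) = 1 := by rw [map_pow, h1, one_pow]
    rw [hz, map_mul] at h2
    have h3 : P.valuation (a - (b - 1) * r) ≤ 1 := by
      refine (P.valuation.map_sub _ _).trans (max_le ha1.le ?_)
      rw [map_mul]
      exact mul_le_one' hzP hrP
    have h4 : P.valuation (p : Qb) * P.valuation (a - (b - 1) * r) < 1 :=
      lt_of_le_of_lt (mul_le_mul' le_rfl h3) (by rw [mul_one]; exact hvp)
    exact absurd h2 h4.ne
  have h5 : P.valuation (a - (b - 1) * r) = 1 := by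
    rw [P.valuation.map_sub_eq_of_lt_left, ha1]
    rw [ha1, map_mul]
    exact lt_of_le_of_lt (mul_le_mul' le_rfl hrP) (by rw [mul_one]; exact hzlt)
  rw [← map_pow, hz, map_mul, h5, mul_one]

theorem pow_mul_pred_eq {Γ : Type*} [CommGroupWithZero Γ] {x y t : Γ} (ht : t ≠ 0) {p : ℕ}
    (hp : 0 < p) (hx : x ^ (p - 1) = t) (hy : y ^ p = t) : (x / y) ^ (p * (p - 1)) = t := by
  have e1 : x ^ (p * (p - 1)) = t ^ p := by rw [mul_comm, pow_mul, hx]
  have e2 : y ^ (p * (p - 1)) = t ^ (p - 1) := by rw [pow_mul, hy]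
  rw [div_pow, e1, e2]
  have e3 : t ^ p = t ^ (p - 1) * t := by
    rw [← pow_succ]
    congr 1
    omega
  rw [e3, mul_div_assoc, mul_comm, div_mul_cancel₀ _ (pow_ne_zero _ ht)]

/-- The uniformiser `λ/(b − 1)` of the cyclic "peu" extension. -/
theorem val_peu_unif (hP : P.LiesOverPrime p) {ζ : Qb} (hζ : ζ ^ p = 1) (hζ1 : ζ ≠ 1)
    {b a : Qb} (hb : b ^ p = 1 + p * a) (ha1 : P.valuation a = 1) :
    P.valuation ((ζ - 1) / (b - 1)) ^ (p * (p - 1)) = P.valuation (p : Qb) := by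
  have hp : p.Prime := Fact.out
  rw [map_div₀]
  exact pow_mul_pred_eq val_p_pos.ne' hp.pos
    (Loc.Basic.valuation_zeta_sub_one_pow p P ζ hζ hζ1) (val_sub_one_pow_peu hP hb ha1)

/-- The break of the cyclic "peu" extension is `1`. -/
theorem val_apply_sub_peu (hP : P.LiesOverPrime p) {ζ : Qb} (hζ : ζ ^ p = 1) (hζ1 : ζ ≠ 1)
    {b a : Qb} (hb : b ^ p = 1 + p * a) (ha1 : P.valuation a = 1) {σ : GQ}
    (hσ : σ ∈ P.inertiaSubgroupIn ℚ) (hσζ : σ ζ = ζ) {j : ℕ} (hj : ¬ p ∣ j)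
    (hσb : σ b = ζ ^ j * b) :
    P.valuation (σ ((ζ - 1) / (b - 1)) - (ζ - 1) / (b - 1)) =
      P.valuation ((ζ - 1) / (b - 1)) ^ 2 := by
  have hp : p.Prime := Fact.out
  have hvz : P.valuation (b - 1) ≠ 0 := by
    intro h0
    have h1 := val_sub_one_pow_peu hP hb ha1
    rw [h0, zero_pow hp.ne_zero] at h1
    exact val_p_pos.ne h1
  have hz0 : b - 1 ≠ 0 := (Valuation.ne_zero_iff _).1 hvz
  have hσz0 : σ (b - 1) ≠ 0 := (map_ne_zero σ).2 hz0
  have hvb : P.valuation b = 1 := by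
    have hvpa : P.valuation ((p : Qb) * a) < 1 := by
      rw [map_mul, ha1, mul_one]; exact val_p_lt_one hP
    have h1 : P.valuation b ^ p = 1 := by
      rw [← map_pow, hb, P.valuation.map_add_eq_of_lt_left (by rw [map_one]; exact hvpa), map_one]
    exact (pow_eq_one_iff.mp h1).resolve_right hp.ne_zero
  have e : σ ((ζ - 1) / (b - 1)) - (ζ - 1) / (b - 1)
      = -((ζ - 1) * (ζ ^ j - 1) * b) / (σ (b - 1) * (b - 1)) := by
    have e1 : σ (b - 1) = ζ ^ j * b - 1 := by rw [map_sub, map_one, hσb]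
    rw [map_div₀, map_sub, map_one, hσζ]
    rw [e1] at hσz0 ⊢
    field_simp
    ring
  rw [e, map_div₀, Valuation.map_neg, map_mul, map_mul, map_mul,
    Fermat.Agent.Lib.TameProp.val_apply hσ, val_zeta_pow_sub_one hζ hζ1 hj, hvb, mul_one, map_div₀,
    div_pow, sq, sq]

/-! ### The cyclic "très" extension -/

omit [Fact p.Prime] in
theorem val_pow_tres {b ε : Qb} (hb : b ^ p = p * ε) (hε : P.valuation ε = 1) :
    P.valuation b ^ p = P.valuation (p : Qb) := by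
  rw [← map_pow, hb, map_mul, hε, mul_one]

/-- The uniformiser `λ/b` of the cyclic "très" extension. -/
theorem val_tres_unif {ζ : Qb} (hζ : ζ ^ p = 1) (hζ1 : ζ ≠ 1)
    {b ε : Qb} (hb : b ^ p = p * ε) (hε : P.valuation ε = 1) :
    P.valuation ((ζ - 1) / b) ^ (p * (p - 1)) = P.valuation (p : Qb) := by
  have hp : p.Prime := Fact.out
  rw [map_div₀]
  exact pow_mul_pred_eq val_p_pos.ne' hp.pos
    (Loc.Basic.valuation_zeta_sub_one_pow p P ζ hζ hζ1) (val_pow_tres hb hε)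

/-- The break of the cyclic "très" extension is `p`. -/
theorem val_apply_sub_tres {ζ : Qb} (hζ : ζ ^ p = 1) (hζ1 : ζ ≠ 1)
    {b ε : Qb} (hb : b ^ p = p * ε) (hε : P.valuation ε = 1) {σ : GQ}
    (hσζ : σ ζ = ζ) {j : ℕ} (hj : ¬ p ∣ j) (hσb : σ b = ζ ^ j * b) :
    P.valuation (σ ((ζ - 1) / b) - (ζ - 1) / b) = P.valuation ((ζ - 1) / b) ^ (p + 1) := by
  have hp : p.Prime := Fact.out
  have hvb0 : P.valuation b ≠ 0 := by
    intro h0
    have h1 := val_pow_tres (P := P) hb hε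
    rw [h0, zero_pow hp.ne_zero] at h1
    exact val_p_pos.ne h1
  have hb0 : b ≠ 0 := (Valuation.ne_zero_iff _).1 hvb0
  have hζ0 : ζ ≠ 0 := by
    rintro rfl
    rw [zero_pow hp.ne_zero] at hζ
    exact zero_ne_one hζ
  have hlam : P.valuation (ζ - 1) ^ (p - 1) = P.valuation (p : Qb) :=
    Loc.Basic.valuation_zeta_sub_one_pow p P ζ hζ hζ1
  have hlam0 : P.valuation (ζ - 1) ≠ 0 := by
    intro h0
    rw [h0, zero_pow (by have := hp.two_le; omega)] at hlam
    exact val_p_pos.ne hlam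
  have e : σ ((ζ - 1) / b) - (ζ - 1) / b = (ζ - 1) / b * (-(ζ ^ j - 1) / ζ ^ j) := by
    rw [map_div₀, map_sub, map_one, hσζ, hσb]
    field_simp
    ring
  have hvlam : P.valuation (ζ - 1) = P.valuation ((ζ - 1) / b) ^ p := by
    rw [map_div₀, div_pow, val_pow_tres hb hε, ← hlam]
    have e3 : P.valuation (ζ - 1) ^ p = P.valuation (ζ - 1) ^ (p - 1) * P.valuation (ζ - 1) := by
      rw [← pow_succ]
      congr 1
      have := hp.pos
      omega
    rw [e3, mul_div_assoc, mul_comm, div_mul_cancel₀ _ (pow_ne_zero _ hlam0)]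
  have h2 : P.valuation (-(ζ ^ j - 1) / ζ ^ j) = P.valuation (ζ - 1) := by
    rw [map_div₀, Valuation.map_neg, val_zeta_pow_sub_one hζ hζ1 hj, map_pow,
      val_zeta_eq_one hζ, one_pow, div_one]
  rw [e, map_mul, h2, pow_succ, ← hvlam, mul_comm]

end Basic

end Fermat.Agent.Padic.S33.LocKum
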