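/-
S33 / (NC), local-field layer, part 1: the `Mono` context at `e = 1` and Serre's transfer of
ramification numbers between two monogenic levels (Serre, *Corps locaux*, IV Prop. 3), in
valuation form over the big valuation ring `P ⊂ Qb`.

`H ≤ I` open of index `n`, `Pi` the `Mono` uniformiser of `Qb^H`:
* `exists_eq_prod_mul`  : for `y ∈ P` fixed by `H` and by the elements of a finite set `T` of
  inertia elements with pairwise distinct `t Pi`, and `σ ∈ I`:
  `∏_{t ∈ T} (Pi − σ (t Pi))` divides `y − σ y` in `P`;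
* `exists_prod_eq_mul`  : if `y` is the `Mono` uniformiser of a second level `H'` and the roots
  `t w` (`t ∈ T`) are permuted by `H'`, then `σ y − y` divides `∏_{t ∈ T} (w − σ (t w))`;
* `val_apply_sub_eq`    : the valuation of `σ y − y` does not depend on the uniformiser;
* `val_apply_sub_le_sq` : wild elements move the uniformiser by at least `Pi²`.
-/
import Mathlib
import Fermat.Agent.TW.Flat.Local.MonoFinal
import Fermat.Agent.TW.Flat.Local.Unr
import Fermat.Agent.TW.Local.FrobGen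

set_option autoImplicit false

namespace Fermat.Agent.Padic.S33.LocKum

open Fermat.Agent.S53 Fermat.Agent.TW.Flat Fermat.Agent.TW.Flat.Loc.MonoPf Polynomial

local notation "Qb" => AlgebraicClosure ℚ

/-! ### The `Mono` context at `e = 1` -/

theorem mem_gf_neg_p (p : ℕ) (P : ValuationSubring Qb) (σ : GQ) :
    σ ∈ GF P (-(p : Qb)) ↔ σ ∈ P.inertiaSubgroupIn ℚ := by
  rw [mem_GF]
  exact ⟨fun h => h.1, fun h => ⟨h, by rw [map_neg, map_natCast]⟩⟩

/-- The `Mono` context of an open subgroup `H` of the inertia group, with `ϖ = −p`. -/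
theorem ctx_one (p : ℕ) [Fact p.Prime] (P : ValuationSubring Qb) (hP : P.LiesOverPrime p)
    (H : Subgroup GQ) (hH : H ≤ P.inertiaSubgroupIn ℚ)
    (hopen : ∃ L₀ : IntermediateField ℚ Qb, FiniteDimensional ℚ L₀ ∧
      ∀ σ ∈ P.inertiaSubgroupIn ℚ, (∀ x ∈ L₀, σ x = x) → σ ∈ H)
    (n : ℕ) (hn : 0 < n) (τ : Fin n → GQ) (hτ : ∀ i, τ i ∈ P.inertiaSubgroupIn ℚ)
    (hcos : ∀ σ ∈ P.inertiaSubgroupIn ℚ, ∃! i, (τ i)⁻¹ * σ ∈ H) :
    Ctx P (-(p : Qb)) H n τ := by
  have hp : p.Prime := Fact.out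
  have hp0 : (p : Qb) ≠ 0 := by exact_mod_cast hp.ne_zero
  have hvp : P.valuation (p : Qb) < 1 := P.mem_nonunits_iff.1 hP
  have hvne : P.valuation (-(p : Qb)) ≠ 0 :=
    (Valuation.ne_zero_iff _).2 (neg_ne_zero.2 hp0)
  have hvlt : P.valuation (-(p : Qb)) < 1 := by rwa [Valuation.map_neg]
  exact
    { vlt := hvlt
      vne := hvne
      hH := fun σ hσ => (mem_gf_neg_p p P σ).2 (hH hσ)
      hopen := by
        obtain ⟨L, hL, hL'⟩ := hopen
        exact ⟨L, hL, fun σ hσ hx => hL' σ hσ.1 hx⟩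
      hn := hn
      hτ := fun i => (mem_gf_neg_p p P _).2 (hτ i)
      hcos := fun σ hσ => hcos σ hσ.1
      fval := by
        intro x hx0 hx
        obtain ⟨m, hm⟩ := Loc.Basic.unr p P hP x hx0
          (fun σ hσ => hx σ ((mem_gf_neg_p p P σ).2 hσ))
        refine ⟨m, ?_⟩
        have h1 := isPUnit_iff_val.1 hm
        rw [map_div₀, map_zpow₀] at h1
        rw [Valuation.map_neg]
        exact (div_eq_one_iff_eq (zpow_ne_zero m ((Valuation.ne_zero_iff _).2 hp0))).1 h1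
      teich := by
        intro x hx
        obtain ⟨ζ, m, hm0, hpm, hζm, hmem⟩ := Loc.Basic.teich p P hP x (isPUnit_iff_val.2 hx)
        have hvζ : P.valuation ζ = 1 := by
          have h1 : P.valuation ζ ^ m = 1 ^ m := by rw [← map_pow, hζm, map_one, one_pow]
          exact (pow_left_inj₀ zero_le zero_le hm0.ne').1 h1
        exact ⟨ζ, (P.valuation_le_one_iff ζ).1 hvζ.le,
          fun σ hσ => Loc.Basic.rootFix p P hP ζ m hm0 hpm hζm σ hσ,
          P.mem_nonunits_iff.1 hmem⟩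
      arch := by
        intro d hd
        obtain ⟨N, hN⟩ := Loc.Basic.arch p P hP (-(p : Qb)) (P.mem_nonunits_iff.2 hvlt) d hd
        refine ⟨N, ?_⟩
        have h1 := (P.valuation_le_one_iff _).2 hN
        rw [map_div₀, map_pow] at h1
        exact (div_le_one₀ (zero_lt_iff.2 ((Valuation.ne_zero_iff _).2 hd))).1 h1 }

section Gen

variable {P : ValuationSubring Qb} {ϖ : Qb} {H : Subgroup GQ} {n : ℕ} {τ : Fin n → GQ}

/-- The uniformiser of the fixed field of `H`, of full ramification index `n`. -/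
theorem exists_unif_full (c : Ctx P ϖ H n τ) : ∃ Pi : Qb, Unif P ϖ H Pi n := by
  obtain ⟨Pi, e', he'0, he'n, hPiH, hPine, hPilt, hPipow, hPival⟩ := c.exists_unif
  have u' : Unif P ϖ H Pi e' := ⟨he'0, hPiH, hPine, hPilt, hPipow, hPival⟩
  have hle : n ≤ e' := Ctx.le_e' c u'
  have hen : e' = n := le_antisymm (Nat.le_of_dvd c.hn he'n) hle
  subst hen
  exact ⟨Pi, u'⟩

theorem apply_mem_of_gf {ρ : GQ} (hρ : ρ ∈ GF P ϖ) {x : Qb} (hx : x ∈ P) : ρ x ∈ P := by
  rw [← P.valuation_le_one_iff, Ctx.val_apply hρ]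
  exact (P.valuation_le_one_iff x).2 hx

theorem unif_mem {Pi : Qb} (u : Unif P ϖ H Pi n) : Pi ∈ P :=
  (P.valuation_le_one_iff Pi).1 u.lt.le

/-- **Transfer, first divisibility.** -/
theorem exists_eq_prod_mul {Pi : Qb} (c : Ctx P ϖ H n τ) (u : Unif P ϖ H Pi n) {y : Qb}
    (hyP : y ∈ P) (hyH : ∀ h ∈ H, h y = y) (T : Finset GQ)
    (hT : ∀ t ∈ T, t ∈ GF P ϖ ∧ t y = y)
    (hinj : Set.InjOn (fun t : GQ => t Pi) (T : Set GQ)) {σ : GQ} (hσ : σ ∈ GF P ϖ) :
    ∃ z ∈ P, y - σ y = (∏ t ∈ T, (Pi - σ (t Pi))) * z := by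
  classical
  obtain ⟨a, ha, hy⟩ := Ctx.span c u hyP hyH
  have hPiP : Pi ∈ P := unif_mem u
  let g : Polynomial P := ∑ i : Fin n, C (⟨a i, (ha i).1⟩ : P) * X ^ (i : ℕ)
  have hgeval : ∀ x : P, ((g.eval x : P) : Qb) = ∑ i : Fin n, a i * (x : Qb) ^ (i : ℕ) := by
    intro x
    simp only [g, eval_finsetSum, eval_mul, eval_C, eval_pow, eval_X]
    push_cast
    rfl
  have hρ : ∀ {ρ : GQ}, ρ ∈ GF P ϖ → ∀ x : Qb,
      ρ (∑ i : Fin n, a i * x ^ (i : ℕ)) = ∑ i : Fin n, a i * (ρ x) ^ (i : ℕ) := by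
    intro ρ hρ x
    simp only [map_sum, map_mul, map_pow]
    exact Finset.sum_congr rfl fun i _ => by rw [(ha i).2 ρ hρ]
  let r : GQ → P := fun t => if h : t Pi ∈ P then ⟨t Pi, h⟩ else 0
  have hr : ∀ t ∈ T, ((r t : P) : Qb) = t Pi := fun t ht => by
    simp only [r]
    rw [dif_pos (apply_mem_of_gf (hT t ht).1 hPiP)]
  let G : Polynomial P := g - C ⟨y, hyP⟩
  have hGeval : ∀ x : P, ((G.eval x : P) : Qb) = ∑ i : Fin n, a i * (x : Qb) ^ (i : ℕ) - y := by
    intro x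
    simp only [G, eval_sub, eval_C]
    push_cast
    rw [hgeval]
  have hroot : ∀ t ∈ T, G.IsRoot (r t) := by
    intro t ht
    rw [IsRoot.def]
    apply Subtype.ext
    rw [hGeval, hr t ht, ← hρ (hT t ht).1, ← hy, (hT t ht).2, sub_self]
    rfl
  have hσi : σ⁻¹ ∈ GF P ϖ := inv_mem hσ
  let s0 : P := ⟨σ⁻¹ Pi, apply_mem_of_gf hσi hPiP⟩
  have hσσ : ∀ x : Qb, σ (σ⁻¹ x) = x := fun x => by
    rw [← AlgEquiv.mul_apply, mul_inv_cancel, AlgEquiv.one_apply]
  have hσs0 : σ ((G.eval s0 : P) : Qb) = y - σ y := by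
    rw [hGeval, map_sub, hρ hσ]
    show ∑ i : Fin n, a i * σ (σ⁻¹ Pi) ^ (i : ℕ) - σ y = y - σ y
    rw [hσσ, ← hy]
  by_cases hG : G = 0
  · refine ⟨0, P.zero_mem, ?_⟩
    rw [mul_zero, ← hσs0, hG, eval_zero]
    simp
  · have hdvd : ((T.val.map r).map fun a => X - C a).prod ∣ G := by
      rw [Multiset.prod_X_sub_C_dvd_iff_le_roots hG]
      have hnd : (T.val.map r).Nodup := by
        refine Multiset.Nodup.map_on ?_ T.nodup
        intro t ht t' ht' htt'
        apply hinj ht ht'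
        show t Pi = t' Pi
        rw [← hr t ht, ← hr t' ht', htt']
      rw [Multiset.le_iff_subset hnd]
      intro x hx
      obtain ⟨t, ht, rfl⟩ := Multiset.mem_map.1 hx
      exact (mem_roots hG).2 (hroot t ht)
    obtain ⟨h, hh⟩ := hdvd
    refine ⟨σ ((h.eval s0 : P) : Qb), apply_mem_of_gf hσ (h.eval s0).2, ?_⟩
    have e1 : ((T.val.map r).map fun a => X - C a).prod = ∏ t ∈ T, (X - C (r t)) := by
      rw [Multiset.map_map]
      rfl
    rw [← hσs0, hh, e1, eval_mul, eval_prod]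
    push_cast
    rw [map_mul, map_prod]
    congr 1
    refine Finset.prod_congr rfl fun t ht => ?_
    simp only [eval_sub, eval_X, eval_C]
    push_cast
    rw [map_sub, hr t ht]
    show σ (σ⁻¹ Pi) - σ (t Pi) = Pi - σ (t Pi)
    rw [hσσ]

/-- For `x` in the ring of integers of the fixed field of `H`, `σ x − x` is divisible by
`σ Pi − Pi`. -/
theorem exists_apply_sub_eq_mul {Pi : Qb} (c : Ctx P ϖ H n τ) (u : Unif P ϖ H Pi n) {x : Qb}
    (hxP : x ∈ P) (hxH : ∀ h ∈ H, h x = x) {σ : GQ} (hσ : σ ∈ GF P ϖ) :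
    ∃ q ∈ P, σ x - x = (σ Pi - Pi) * q := by
  obtain ⟨a, ha, hx⟩ := Ctx.span c u hxP hxH
  have hPiP : Pi ∈ P := unif_mem u
  let g : Polynomial P := ∑ i : Fin n, C (⟨a i, (ha i).1⟩ : P) * X ^ (i : ℕ)
  have hgeval : ∀ z : P, ((g.eval z : P) : Qb) = ∑ i : Fin n, a i * (z : Qb) ^ (i : ℕ) := by
    intro z
    simp only [g, eval_finsetSum, eval_mul, eval_C, eval_pow, eval_X]
    push_cast
    rfl
  obtain ⟨q, hq⟩ := sub_dvd_eval_sub (⟨σ Pi, apply_mem_of_gf hσ hPiP⟩ : P) ⟨Pi, hPiP⟩ g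
  refine ⟨q, q.2, ?_⟩
  have h1 : ((g.eval ⟨σ Pi, apply_mem_of_gf hσ hPiP⟩ - g.eval ⟨Pi, hPiP⟩ : P) : Qb)
      = (((⟨σ Pi, apply_mem_of_gf hσ hPiP⟩ - ⟨Pi, hPiP⟩) * q : P) : Qb) := congrArg Subtype.val hq
  push_cast at h1
  rw [hgeval, hgeval] at h1
  rw [← h1]
  conv_lhs => rw [hx]
  simp only [map_sum, map_mul, map_pow]
  congr 1
  exact Finset.sum_congr rfl fun i _ => by rw [(ha i).2 σ hσ]

/-- **Transfer, second divisibility.** -/
theorem exists_prod_eq_mul {H' : Subgroup GQ} {n' : ℕ} {τ' : Fin n' → GQ} {y : Qb}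
    (c' : Ctx P ϖ H' n' τ') (u' : Unif P ϖ H' y n') {w : Qb} (hw : w ∈ P) (T : Finset GQ)
    (hT : ∀ t ∈ T, t ∈ GF P ϖ)
    (hperm : ∀ h ∈ H', ∀ t ∈ T, ∃ t' ∈ T, h (t w) = t' w)
    (h1 : ∃ t ∈ T, t w = w)
    (hinj : Set.InjOn (fun t : GQ => t w) (T : Set GQ)) {σ : GQ} (hσ : σ ∈ GF P ϖ) :
    ∃ z ∈ P, ∏ t ∈ T, (w - σ (t w)) = (σ y - y) * z := by
  classical
  let r : GQ → P := fun t => if h : t w ∈ P then ⟨t w, h⟩ else 0
  have hr : ∀ t ∈ T, ((r t : P) : Qb) = t w := fun t ht => by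
    simp only [r]
    rw [dif_pos (apply_mem_of_gf (hT t ht) hw)]
  let fP : Polynomial P := ∏ t ∈ T, (X - C (r t))
  let f : Polynomial Qb := ∏ t ∈ T, (X - C (t w))
  have hfP : fP.map P.subtype = f := by
    simp only [fP, f, Polynomial.map_prod, Polynomial.map_sub, map_X, map_C]
    refine Finset.prod_congr rfl fun t ht => ?_
    rw [← hr t ht]
    rfl
  have hcoeffP : ∀ i, f.coeff i ∈ P := by
    intro i
    rw [← hfP, coeff_map]
    exact (fP.coeff i).2
  -- invariance under `H'`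
  let S : Finset Qb := T.image (fun t : GQ => t w)
  have hfS : ∀ φ : Qb → Qb, ∏ t ∈ T, (X - C (φ (t w))) = ∏ x ∈ S, (X - C (φ x)) := by
    intro φ
    rw [Finset.prod_image hinj]
  have hfix : ∀ h ∈ H', f.map (h : Qb →+* Qb) = f := by
    intro h hh
    have e1 : f.map (h : Qb →+* Qb) = ∏ t ∈ T, (X - C (h (t w))) := by
      simp only [f, Polynomial.map_prod, Polynomial.map_sub, map_X, map_C]
      rfl
    have hSS : S.image (fun x => h x) = S := by
      apply Finset.eq_of_subset_of_card_le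
      · intro x hx
        obtain ⟨x', hx', rfl⟩ := Finset.mem_image.1 hx
        obtain ⟨t, ht, rfl⟩ := Finset.mem_image.1 hx'
        obtain ⟨t', ht', htt'⟩ := hperm h hh t ht
        rw [htt']
        exact Finset.mem_image_of_mem _ ht'
      · rw [Finset.card_image_of_injective _ h.injective]
    rw [e1, hfS (fun x => h x)]
    have e2 : ∏ x ∈ S, (X - C (h x)) = ∏ x ∈ S.image (fun x => h x), (X - C x) := by
      rw [Finset.prod_image (fun a _ b _ hab => h.injective hab)]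
    rw [e2, hSS]
    have := hfS id
    simpa using this.symm
  have hcoeffH : ∀ i, ∀ h ∈ H', h (f.coeff i) = f.coeff i := by
    intro i h hh
    have := congrArg (fun q : Polynomial Qb => q.coeff i) (hfix h hh)
    simpa [coeff_map] using this
  have hq : ∀ i, ∃ q ∈ P, σ (f.coeff i) - f.coeff i = (σ y - y) * q := fun i =>
    exists_apply_sub_eq_mul c' u' (hcoeffP i) (hcoeffH i) hσ
  choose q hqP hq using hq
  -- evaluation
  have hfw : f.eval w = 0 := by
    obtain ⟨t, ht, htw⟩ := h1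
    simp only [f, eval_prod, eval_sub, eval_X, eval_C]
    exact Finset.prod_eq_zero ht (by rw [htw, sub_self])
  have hσf : (f.map (σ : Qb →+* Qb)).eval w = ∏ t ∈ T, (w - σ (t w)) := by
    simp only [f, Polynomial.map_prod, Polynomial.map_sub, map_X, map_C, eval_prod, eval_sub,
      eval_X, eval_C]
    rfl
  have hN1 : f.natDegree < f.natDegree + 1 := Nat.lt_succ_self _
  have hN2 : (f.map (σ : Qb →+* Qb)).natDegree < f.natDegree + 1 :=
    lt_of_le_of_lt (natDegree_map_le) hN1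
  refine ⟨∑ i ∈ Finset.range (f.natDegree + 1), q i * w ^ i,
    sum_mem fun i _ => mul_mem (hqP i) (pow_mem hw i), ?_⟩
  rw [← hσf, ← sub_zero ((f.map (σ : Qb →+* Qb)).eval w), ← hfw, eval_eq_sum_range' hN2,
    eval_eq_sum_range' hN1, ← Finset.sum_sub_distrib, Finset.mul_sum]
  refine Finset.sum_congr rfl fun i _ => ?_
  rw [coeff_map, ← sub_mul]
  show (σ (f.coeff i) - f.coeff i) * w ^ i = _
  rw [hq i]
  ring

/-- The valuation of `σ y − y` is the same for all uniformisers `y` of the fixed field of `H`. -/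
theorem val_apply_sub_eq {Pi : Qb} (c : Ctx P ϖ H n τ) (u : Unif P ϖ H Pi n) {w' : Qb}
    (hw'H : ∀ h ∈ H, h w' = w') (hval : P.valuation w' = P.valuation Pi) {σ : GQ}
    (hσ : σ ∈ GF P ϖ) :
    P.valuation (σ w' - w') = P.valuation (σ Pi - Pi) := by
  have hPi0 : Pi ≠ 0 := Ctx.pi_ne u
  have hvPi : P.valuation Pi ≠ 0 := u.ne
  have hε1 : P.valuation (w' / Pi) = 1 := by rw [map_div₀, hval, div_self hvPi]
  have hεP : w' / Pi ∈ P := (P.valuation_le_one_iff _).1 hε1.le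
  have hεH : ∀ h ∈ H, h (w' / Pi) = w' / Pi := fun h hh => by
    rw [map_div₀, hw'H h hh, u.fixH h hh]
  obtain ⟨q, hqP, hq⟩ := exists_apply_sub_eq_mul c u hεP hεH hσ
  have hσPi0 : σ Pi ≠ 0 := (map_ne_zero σ).2 hPi0
  have e1 : w' = Pi * (w' / Pi) := by field_simp
  generalize w' / Pi = ε at hε1 hεP hεH hq e1
  have e : σ w' - w' = (σ Pi - Pi) * (σ Pi * q + ε) := by
    have e3 : σ ε = ε + (σ Pi - Pi) * q := by rw [← hq]; ring
    rw [e1, map_mul, e3]
    ring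
  rw [e, map_mul]
  have hlt : P.valuation (σ Pi * q) < P.valuation ε := by
    rw [hε1, map_mul, Ctx.val_apply hσ]
    calc P.valuation Pi * P.valuation q ≤ P.valuation Pi * 1 :=
          mul_le_mul' le_rfl ((P.valuation_le_one_iff q).2 hqP)
      _ = P.valuation Pi := mul_one _
      _ < 1 := u.lt
  rw [P.valuation.map_add_eq_of_lt_right hlt, hε1, mul_one]

/-- **Wild elements** move the uniformiser by at least `Pi²`. -/
theorem val_apply_sub_le_sq {Pi : Qb} (u : Unif P ϖ H Pi n) {p : ℕ} (hp : p.Prime)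
    (hP : P.LiesOverPrime p) {σ : GQ} (hσ : σ ∈ P.inertiaSubgroupIn ℚ) (hσp : σ ^ p ∈ H)
    (hnorm : ∀ h ∈ H, σ⁻¹ * h * σ ∈ H) :
    P.valuation (σ Pi - Pi) ≤ P.valuation Pi ^ 2 := by
  have hPi0 : Pi ≠ 0 := Ctx.pi_ne u
  have : Fact p.Prime := ⟨hp⟩
  have : CharP (IsLocalRing.ResidueField P) p :=
    Fermat.Agent.TW.Away.charP_residueField_of_liesOverPrime P hp hP
  let s : ↥(P.inertiaSubgroupIn ℚ) := ⟨σ, hσ⟩
  have h1 : Fermat.Agent.Lib.TameProp.theta P Pi hPi0 (s ^ p) = 1 := by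
    rw [Fermat.Agent.Lib.TameProp.theta_eq_one_iff]
    show Fermat.Agent.Lib.TameProp.U1 P ((σ ^ p) Pi / Pi)
    rw [u.fixH _ hσp, div_self hPi0]
    exact Fermat.Agent.Lib.TameProp.U1.one
  have h2 : Fermat.Agent.Lib.TameProp.theta P Pi hPi0 s = 1 := by
    apply frobenius_inj (IsLocalRing.ResidueField P) p
    rw [frobenius_def, frobenius_def, one_pow, ← map_pow]
    exact h1
  rw [Fermat.Agent.Lib.TameProp.theta_eq_one_iff] at h2
  have hv : P.valuation (σ Pi / Pi - 1) < 1 := h2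
  have hfix : ∀ h ∈ H, h (σ Pi / Pi - 1) = σ Pi / Pi - 1 := by
    intro h hh
    have e : h (σ Pi) = σ Pi := by
      have e1 : h = σ * (σ⁻¹ * h * σ) * σ⁻¹ := by group
      have e2 : (σ⁻¹ * h * σ) Pi = Pi := u.fixH _ (hnorm h hh)
      have e3 : (σ⁻¹ * h * σ) Pi = σ⁻¹ (h (σ Pi)) := rfl
      rw [e3] at e2
      have e4 : σ (σ⁻¹ (h (σ Pi))) = h (σ Pi) := by
        rw [← AlgEquiv.mul_apply, mul_inv_cancel, AlgEquiv.one_apply]
      rw [← e4, e2]
    rw [map_sub, map_div₀, e, u.fixH h hh, map_one]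
  obtain ⟨x', hx'P, -, hx'⟩ := Ctx.div_pi u hfix hv
  have e : σ Pi - Pi = Pi ^ 2 * x' := by
    have : σ Pi = Pi * (σ Pi / Pi) := by field_simp
    rw [this]
    have e5 : σ Pi / Pi = 1 + Pi * x' := by rw [← hx']; ring
    rw [e5]
    ring
  rw [e, map_mul, map_pow]
  calc P.valuation Pi ^ 2 * P.valuation x' ≤ P.valuation Pi ^ 2 * 1 :=
        mul_le_mul' le_rfl ((P.valuation_le_one_iff x').2 hx'P)
    _ = P.valuation Pi ^ 2 := mul_one _

end Gen

end Fermat.Agent.Padic.S33.LocKum
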