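/-
S33 / (NC), local-field layer, part 4: the setup (a twisted cocycle `c : I → L` with values in an
`𝔽_p`-vector space), the subgroups `I₁ = {σ ∈ I | σ ζ = ζ}`, `H = {σ ∈ I₁ | c σ = 0}`,
`H_f = {σ ∈ I₁ | f (c σ) = 0}` and their indices:
`[I : I₁] = p − 1`, `[I₁ : H] = p^s`, `[I₁ : H_f] = p` (`f ∘ c ≠ 0` on `I₁`).
-/
import Mathlib
import Fermat.Agent.Padic.S33.LocKum.Transfer
import Fermat.Agent.Padic.S33.LocKum.Cyclic
import Fermat.Agent.Padic.S33.LocKum.Group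
import Fermat.Agent.TW.Local.KummerCount

set_option autoImplicit false

namespace Fermat.Agent.Padic.S33.LocKum

open Fermat.Agent.S53 Fermat.Agent.TW.Flat Fermat.Agent.TW.Flat.Loc.MonoPf
  Fermat.Agent.TW.KummerCount

local notation "Qb" => AlgebraicClosure ℚ

/-- The hypotheses of the local Kummer layer: `ω` the mod `p` cyclotomic character, `c` an
`ω`-twisted cocycle on the inertia group, constant on the cosets of an open subgroup. -/
structure Setup (p : ℕ) (P : ValuationSubring Qb) (ζ : Qb) {L : Type*} [AddCommGroup L]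
    [Module (ZMod p) L] (ω : GQ → ZMod p) (c : GQ → L) : Prop where
  hp2 : p ≠ 2
  hP : P.LiesOverPrime p
  hζ : ζ ^ p = 1
  hζ1 : ζ ≠ 1
  hω : ∀ σ : GQ, σ ζ = ζ ^ (ω σ).val
  hc : ∀ σ ∈ P.inertiaSubgroupIn ℚ, ∀ τ ∈ P.inertiaSubgroupIn ℚ, c (σ * τ) = c σ + ω σ • c τ
  hlev : ∃ L₀ : IntermediateField ℚ Qb, FiniteDimensional ℚ L₀ ∧
    ∀ σ ∈ P.inertiaSubgroupIn ℚ, (∀ x ∈ L₀, σ x = x) → c σ = 0

theorem gf_le_inertia (P : ValuationSubring Qb) (ζ : Qb) : GF P ζ ≤ P.inertiaSubgroupIn ℚ :=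
  fun _ h => h.1

theorem nsmul_p_eq_zero {p : ℕ} {L : Type*} [AddCommGroup L] [Module (ZMod p) L] (l : L) :
    p • l = 0 := by
  rw [← Nat.cast_smul_eq_nsmul (ZMod p), ZMod.natCast_self, zero_smul]

namespace Setup

variable {p : ℕ} [Fact p.Prime] {P : ValuationSubring Qb} {ζ : Qb} {L : Type*} [AddCommGroup L]
  [Module (ZMod p) L] {ω : GQ → ZMod p} {c : GQ → L} (S : Setup p P ζ ω c)

include S

theorem prim : IsPrimitiveRoot ζ p := isPrimitiveRoot_of S.hζ S.hζ1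

theorem omega_eq_one_iff (σ : GQ) : ω σ = 1 ↔ σ ζ = ζ := by
  have hp : p.Prime := Fact.out
  have : NeZero p := ⟨hp.ne_zero⟩
  have : Fact (1 < p) := ⟨hp.one_lt⟩
  constructor
  · intro h
    rw [S.hω σ, h, ZMod.val_one, pow_one]
  · intro h
    apply pow_val_injective S.prim
    rw [← S.hω σ, h, ZMod.val_one, pow_one]

theorem omega_mul (σ τ : GQ) : ω (σ * τ) = ω σ * ω τ := by
  have hp : p.Prime := Fact.out
  have : NeZero p := ⟨hp.ne_zero⟩
  apply pow_val_injective S.prim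
  rw [← S.hω (σ * τ), AlgEquiv.mul_apply, S.hω τ, map_pow, S.hω σ, pow_val_mul S.hζ]

theorem omega_one : ω 1 = 1 := by
  rw [S.omega_eq_one_iff, AlgEquiv.one_apply]

theorem omega_ne_zero (σ : GQ) : ω σ ≠ 0 := by
  intro h
  have h1 := S.omega_mul σ σ⁻¹
  rw [mul_inv_cancel, S.omega_one, h, zero_mul] at h1
  exact one_ne_zero h1

theorem mem_gf_iff (σ : GQ) : σ ∈ GF P ζ ↔ σ ∈ P.inertiaSubgroupIn ℚ ∧ ω σ = 1 := by
  rw [mem_GF, S.omega_eq_one_iff]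

theorem c_mul_of_gf {σ τ : GQ} (hσ : σ ∈ GF P ζ) (hτ : τ ∈ P.inertiaSubgroupIn ℚ) :
    c (σ * τ) = c σ + c τ := by
  rw [S.hc σ hσ.1 τ hτ, ((S.mem_gf_iff σ).1 hσ).2, one_smul]

theorem c_one : c 1 = 0 := by
  have h := S.c_mul_of_gf (one_mem (GF P ζ)) (one_mem (P.inertiaSubgroupIn ℚ))
  rw [mul_one] at h
  exact left_eq_add.mp h

theorem c_inv_of_gf {σ : GQ} (hσ : σ ∈ GF P ζ) : c σ⁻¹ = -c σ := by
  have h := S.c_mul_of_gf (inv_mem hσ) hσ.1
  rw [inv_mul_cancel, S.c_one] at h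
  exact eq_neg_of_add_eq_zero_left h.symm

/-- The restriction of `c` to `I₁` is a homomorphism. -/
noncomputable def cHom : ↥(GF P ζ) →* Multiplicative L where
  toFun σ := Multiplicative.ofAdd (c (σ : GQ))
  map_one' := by
    show Multiplicative.ofAdd (c (1 : GQ)) = 1
    rw [S.c_one]
    rfl
  map_mul' σ τ := by
    show Multiplicative.ofAdd (c ((σ : GQ) * (τ : GQ))) = _
    rw [S.c_mul_of_gf σ.2 τ.2.1]
    rfl

theorem cHom_apply (σ : ↥(GF P ζ)) : S.cHom σ = Multiplicative.ofAdd (c (σ : GQ)) := rfl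

/-- `H = {σ ∈ I | σ ζ = ζ ∧ c σ = 0}`. -/
def stab : Subgroup GQ where
  carrier := {σ | σ ∈ GF P ζ ∧ c σ = 0}
  mul_mem' := by
    rintro σ τ ⟨hσ, hσc⟩ ⟨hτ, hτc⟩
    exact ⟨mul_mem hσ hτ, by rw [S.c_mul_of_gf hσ hτ.1, hσc, hτc, add_zero]⟩
  one_mem' := ⟨one_mem _, S.c_one⟩
  inv_mem' := by
    rintro σ ⟨hσ, hσc⟩
    exact ⟨inv_mem hσ, by rw [S.c_inv_of_gf hσ, hσc, neg_zero]⟩

theorem mem_stab (σ : GQ) : σ ∈ S.stab ↔ σ ∈ GF P ζ ∧ c σ = 0 := Iff.rfl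

theorem stab_le : S.stab ≤ GF P ζ := fun _ h => h.1

/-- `H_f = {σ ∈ I | σ ζ = ζ ∧ f (c σ) = 0}`. -/
def stabF (f : Module.Dual (ZMod p) L) : Subgroup GQ where
  carrier := {σ | σ ∈ GF P ζ ∧ f (c σ) = 0}
  mul_mem' := by
    rintro σ τ ⟨hσ, hσc⟩ ⟨hτ, hτc⟩
    exact ⟨mul_mem hσ hτ, by rw [S.c_mul_of_gf hσ hτ.1, map_add, hσc, hτc, add_zero]⟩
  one_mem' := ⟨one_mem _, by rw [S.c_one, map_zero]⟩
  inv_mem' := by
    rintro σ ⟨hσ, hσc⟩
    exact ⟨inv_mem hσ, by rw [S.c_inv_of_gf hσ, map_neg, hσc, neg_zero]⟩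

theorem mem_stabF (f : Module.Dual (ZMod p) L) (σ : GQ) :
    σ ∈ S.stabF f ↔ σ ∈ GF P ζ ∧ f (c σ) = 0 := Iff.rfl

theorem stabF_le (f : Module.Dual (ZMod p) L) : S.stabF f ≤ GF P ζ := fun _ h => h.1

theorem stab_le_stabF (f : Module.Dual (ZMod p) L) : S.stab ≤ S.stabF f :=
  fun _ h => ⟨h.1, by rw [h.2, map_zero]⟩

/-- The three subgroups are open in the inertia group. -/
theorem stab_open : ∃ L₀ : IntermediateField ℚ Qb, FiniteDimensional ℚ L₀ ∧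
    ∀ σ ∈ P.inertiaSubgroupIn ℚ, (∀ x ∈ L₀, σ x = x) → σ ∈ S.stab := by
  have hp : p.Prime := Fact.out
  obtain ⟨L₀, hfin, hL₀⟩ := S.hlev
  have hζint : IsIntegral ℚ ζ := (S.prim.isIntegral hp.pos).tower_top
  have : FiniteDimensional ℚ (IntermediateField.adjoin ℚ {ζ}) :=
    IntermediateField.adjoin.finiteDimensional hζint
  refine ⟨L₀ ⊔ IntermediateField.adjoin ℚ {ζ}, inferInstance, fun σ hσ hx => ⟨⟨hσ, ?_⟩, ?_⟩⟩
  · exact hx ζ ((le_sup_right : IntermediateField.adjoin ℚ {ζ} ≤ _)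
      (IntermediateField.mem_adjoin_simple_self ℚ ζ))
  · exact hL₀ σ hσ fun x hx' => hx x ((le_sup_left : L₀ ≤ _) hx')

theorem stabF_open (f : Module.Dual (ZMod p) L) :
    ∃ L₀ : IntermediateField ℚ Qb, FiniteDimensional ℚ L₀ ∧
      ∀ σ ∈ P.inertiaSubgroupIn ℚ, (∀ x ∈ L₀, σ x = x) → σ ∈ S.stabF f := by
  obtain ⟨L₀, hfin, hL₀⟩ := S.stab_open
  exact ⟨L₀, hfin, fun σ hσ hx => S.stab_le_stabF f (hL₀ σ hσ hx)⟩

theorem gf_open : ∃ L₀ : IntermediateField ℚ Qb, FiniteDimensional ℚ L₀ ∧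
    ∀ σ ∈ P.inertiaSubgroupIn ℚ, (∀ x ∈ L₀, σ x = x) → σ ∈ GF P ζ := by
  obtain ⟨L₀, hfin, hL₀⟩ := S.stab_open
  exact ⟨L₀, hfin, fun σ hσ hx => S.stab_le (hL₀ σ hσ hx)⟩

theorem stab_relIndex_ne_zero : S.stab.relIndex (P.inertiaSubgroupIn ℚ) ≠ 0 :=
  relIndex_ne_zero_of_open _ _ S.stab_open

theorem stabF_relIndex_ne_zero (f : Module.Dual (ZMod p) L) :
    (S.stabF f).relIndex (P.inertiaSubgroupIn ℚ) ≠ 0 :=
  relIndex_ne_zero_of_open _ _ (S.stabF_open f)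

theorem gf_relIndex_ne_zero : (GF P ζ).relIndex (P.inertiaSubgroupIn ℚ) ≠ 0 :=
  relIndex_ne_zero_of_open _ _ S.gf_open

/-! ### Indices -/


/-- `[I₁ : H]` is a power of `p`. -/
theorem exists_relIndex_stab [Finite L] : ∃ s : ℕ, S.stab.relIndex (GF P ζ) = p ^ s := by
  have hker : S.stab.subgroupOf (GF P ζ) = S.cHom.ker := by
    ext σ
    rw [Subgroup.mem_subgroupOf, MonoidHom.mem_ker, S.mem_stab, S.cHom_apply]
    constructor
    · rintro ⟨-, h⟩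
      rw [h]
      rfl
    · intro h
      exact ⟨σ.2, h⟩
  rw [Subgroup.relIndex, hker, Subgroup.index_ker]
  have hpg : IsPGroup p ↥S.cHom.range := by
    intro g
    refine ⟨1, ?_⟩
    rw [pow_one]
    apply Subtype.ext
    show (g : Multiplicative L) ^ p = 1
    exact nsmul_p_eq_zero (p := p) (Multiplicative.toAdd (g : Multiplicative L))
  exact IsPGroup.iff_card.1 hpg

/-- `[I₁ : H_f] = p` if `f ∘ c` does not vanish on `I₁`. -/
theorem relIndex_stabF (f : Module.Dual (ZMod p) L) {σ : GQ} (hσ : σ ∈ GF P ζ)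
    (hf : f (c σ) ≠ 0) : (S.stabF f).relIndex (GF P ζ) = p := by
  have hp : p.Prime := Fact.out
  let g : ↥(GF P ζ) →* Multiplicative (ZMod p) :=
    (AddMonoidHom.toMultiplicative f.toAddMonoidHom).comp S.cHom
  have hg : ∀ τ : ↥(GF P ζ), g τ = Multiplicative.ofAdd (f (c (τ : GQ))) := fun τ => rfl
  have hker : (S.stabF f).subgroupOf (GF P ζ) = g.ker := by
    ext τ
    rw [Subgroup.mem_subgroupOf, MonoidHom.mem_ker, S.mem_stabF, hg]
    constructor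
    · rintro ⟨-, h⟩
      rw [h]
      rfl
    · intro h
      exact ⟨τ.2, h⟩
  rw [Subgroup.relIndex, hker, Subgroup.index_ker]
  have hdvd : Nat.card g.range ∣ Nat.card (Multiplicative (ZMod p)) :=
    Subgroup.card_subgroup_dvd_card _
  have hcard : Nat.card (Multiplicative (ZMod p)) = p := by
    rw [Nat.card_congr (Multiplicative.toAdd : Multiplicative (ZMod p) ≃ ZMod p), Nat.card_zmod]
  rw [hcard] at hdvd
  rcases (Nat.dvd_prime hp).1 hdvd with h1 | h1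
  · exfalso
    have h2 : g.range = ⊥ := Subgroup.card_eq_one.1 h1
    have h3 : g ⟨σ, hσ⟩ ∈ g.range := ⟨_, rfl⟩
    rw [h2, Subgroup.mem_bot, hg] at h3
    exact hf h3
  · exact h1

/-- `[I : I₁] = p − 1`. -/
theorem relIndex_gf : (GF P ζ).relIndex (P.inertiaSubgroupIn ℚ) = p - 1 := by
  have hp : p.Prime := Fact.out
  have hn₁ := S.gf_relIndex_ne_zero
  have hr := exists_reps (GF P ζ) (P.inertiaSubgroupIn ℚ) hn₁
  generalize (GF P ζ).relIndex (P.inertiaSubgroupIn ℚ) = n₁ at hn₁ hr ⊢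
  obtain ⟨τ, hτ, hcos⟩ := hr
  have c₁ : Ctx P (-(p : Qb)) (GF P ζ) n₁ τ :=
    ctx_one p P S.hP (GF P ζ) (gf_le_inertia P ζ) S.gf_open _ (Nat.pos_of_ne_zero hn₁) τ hτ hcos
  obtain ⟨Pi, u⟩ := exists_unif_full c₁
  apply le_antisymm
  · -- the representatives have distinct nonzero values of `ω`
    have hinj : Function.Injective (fun i : Fin n₁ => ω (τ i)) := by
      intro i j hij
      have hij' : ω (τ i) = ω (τ j) := hij
      have h1 : (τ i)⁻¹ * τ j ∈ GF P ζ := by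
        rw [S.mem_gf_iff]
        refine ⟨mul_mem (inv_mem (hτ i)) (hτ j), ?_⟩
        have h2 := S.omega_mul (τ i) ((τ i)⁻¹ * τ j)
        rw [mul_inv_cancel_left, ← hij'] at h2
        exact (mul_right_cancel₀ (S.omega_ne_zero (τ i))
          (by rw [one_mul, mul_comm]; exact h2)).symm
      have h3 : (τ j)⁻¹ * τ j ∈ GF P ζ := by
        rw [inv_mul_cancel]
        exact one_mem _
      exact c₁.idx_unique (c₁.hτ j) h1 h3
    have hmaps : ∀ i ∈ (Finset.univ : Finset (Fin n₁)),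
        ω (τ i) ∈ (Finset.univ : Finset (ZMod p)).erase 0 := fun i _ =>
      Finset.mem_erase.2 ⟨S.omega_ne_zero _, Finset.mem_univ _⟩
    have h4 := Finset.card_le_card_of_injOn _ hmaps hinj.injOn
    rw [Finset.card_univ, Fintype.card_fin, Finset.card_erase_of_mem (Finset.mem_univ _),
      Finset.card_univ, ZMod.card] at h4
    exact h4
  · -- `λ = ζ − 1` is fixed by `I₁`
    have hlam0 : ζ - 1 ≠ 0 := sub_ne_zero.2 S.hζ1
    have hfix : ∀ h ∈ GF P ζ, h (ζ - 1) = ζ - 1 := fun h hh => by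
      rw [map_sub, map_one, hh.2]
    obtain ⟨t, ht⟩ := u.val (ζ - 1) hlam0 hfix
    have h1 : P.valuation (ζ - 1) ^ (p - 1) = P.valuation (p : Qb) :=
      Loc.Basic.valuation_zeta_sub_one_pow p P ζ S.hζ S.hζ1
    have h2 := u.pow
    rw [Valuation.map_neg, ← h1, ht, ← zpow_natCast, ← zpow_natCast, ← zpow_mul] at h2
    have hpos : (0 : P.ValueGroup) < P.valuation Pi := zero_lt_iff.2 u.ne
    have h3 := (zpow_right_inj₀ hpos u.lt.ne).1 h2
    have hp1 : 0 < p - 1 := by have := hp.two_le; omega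
    have h5 : (0 : ℤ) < t := by
      by_contra hcon
      have h6 : t * ((p - 1 : ℕ) : ℤ) ≤ 0 :=
        mul_nonpos_of_nonpos_of_nonneg (not_lt.1 hcon) (Int.natCast_nonneg _)
      have h7 : (0 : ℤ) < (n₁ : ℤ) := by
        exact_mod_cast Nat.pos_of_ne_zero hn₁
      omega
    have h8 : ((p - 1 : ℕ) : ℤ) ≤ t * ((p - 1 : ℕ) : ℤ) := by nlinarith
    have h9 : ((p - 1 : ℕ) : ℤ) ≤ (n₁ : ℤ) := by
      rw [h3]
      exact h8
    exact_mod_cast h9

/-- `[I : H] = (p − 1) p^s`. -/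
theorem exists_relIndex_stab_inertia [Finite L] : ∃ s : ℕ,
    S.stab.relIndex (GF P ζ) = p ^ s ∧
      S.stab.relIndex (P.inertiaSubgroupIn ℚ) = (p - 1) * p ^ s := by
  obtain ⟨s, hs⟩ := S.exists_relIndex_stab
  refine ⟨s, hs, ?_⟩
  rw [← Subgroup.relIndex_mul_relIndex _ _ _ S.stab_le (gf_le_inertia P ζ), hs, S.relIndex_gf,
    mul_comm]

end Setup

end Fermat.Agent.Padic.S33.LocKum
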