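/-
S33 / (NC), local-field layer, part 5: Kummer generators of the twisted cocycle and the
"peu / très" alternative.

For every `𝔽_p`-functional `f` on `L` there is `b ≠ 0` with `σ b = ζ^(f (c σ)) · b` for all `σ`
in the inertia group (`exists_isEig`, twisted Hilbert 90 on `I`), so `b^p ∈ K^unr`.
* `Peu f`  : some generator has `b^p = 1 + p a`, `a ∈ W`;
* `Tres f` : some generator has `b^p = p · ε`, `ε ∈ W^×`;
* `peu_or_tres` : `Peu f` or `Tres (j • f)` for some `0 < j < p`;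
* `peuSub` : the "peu" functionals form a subspace; `tres_sub` : it has codimension `≤ 1`;
* `Peu`-generators moved by `σ ∈ I₁` have `a` a unit (`val_eq_one_of_isEig`).
-/
import Mathlib
import Fermat.Agent.Padic.S33.LocKum.Index

set_option autoImplicit false

namespace Fermat.Agent.Padic.S33.LocKum

open Fermat.Agent.S53 Fermat.Agent.TW.Flat Fermat.Agent.TW.Flat.Loc.MonoPf
  Fermat.Agent.TW.KummerCount

local notation "Qb" => AlgebraicClosure ℚ

section Eig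

variable {p : ℕ} {L : Type*} [AddCommGroup L] [Module (ZMod p) L]

/-- `b` is a Kummer generator for the functional `f`: `σ b = ζ^(f (c σ)) · b` on inertia. -/
def IsEig (P : ValuationSubring Qb) (ζ : Qb) (c : GQ → L) (f : Module.Dual (ZMod p) L)
    (b : Qb) : Prop :=
  b ≠ 0 ∧ ∀ σ ∈ P.inertiaSubgroupIn ℚ, σ b = ζ ^ (f (c σ)).val * b

/-- "peu ramifié": a generator with `b^p = 1 + p a`, `a` integral and inertia-fixed. -/
def Peu (P : ValuationSubring Qb) (ζ : Qb) (c : GQ → L) (f : Module.Dual (ZMod p) L) : Prop :=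
  ∃ b a : Qb, IsEig P ζ c f b ∧ a ∈ P ∧ IFix P a ∧ b ^ p = 1 + p * a

/-- "très ramifié": a generator with `b^p = p ε`, `ε` an inertia-fixed unit. -/
def Tres (P : ValuationSubring Qb) (ζ : Qb) (c : GQ → L) (f : Module.Dual (ZMod p) L) : Prop :=
  ∃ b ε : Qb, IsEig P ζ c f b ∧ P.valuation ε = 1 ∧ IFix P ε ∧ b ^ p = p * ε

variable {P : ValuationSubring Qb} {ζ : Qb} {c : GQ → L} {f f' : Module.Dual (ZMod p) L}
  {b b' : Qb}

theorem IsEig.pow_ifix (h : IsEig P ζ c f b) (hζ : ζ ^ p = 1) : IFix P (b ^ p) := by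
  intro σ hσ
  rw [map_pow, h.2 σ hσ, mul_pow, ← pow_mul, mul_comm _ p, pow_mul, hζ, one_pow, one_mul]

theorem IsEig.div_fix (h : IsEig P ζ c f b) {κ : Qb} (hκ0 : κ ≠ 0) (hκ : IFix P κ) :
    IsEig P ζ c f (b / κ) :=
  ⟨div_ne_zero h.1 hκ0, fun σ hσ => by rw [map_div₀, h.2 σ hσ, hκ σ hσ, mul_div_assoc]⟩

theorem isEig_zero_one : IsEig P ζ c (0 : Module.Dual (ZMod p) L) 1 :=
  ⟨one_ne_zero, fun σ _ => by
    rw [map_one, LinearMap.zero_apply, ZMod.val_zero, pow_zero, one_mul]⟩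

theorem IsEig.mul [NeZero p] (hζ : ζ ^ p = 1) (h : IsEig P ζ c f b) (h' : IsEig P ζ c f' b') :
    IsEig P ζ c (f + f') (b * b') :=
  ⟨mul_ne_zero h.1 h'.1, fun σ hσ => by
    rw [map_mul, h.2 σ hσ, h'.2 σ hσ, LinearMap.add_apply, pow_val_add hζ]
    ring⟩

theorem IsEig.div [NeZero p] (hζ : ζ ^ p = 1) (hζ0 : ζ ≠ 0) (h : IsEig P ζ c f b)
    (h' : IsEig P ζ c f' b') : IsEig P ζ c (f - f') (b / b') :=
  ⟨div_ne_zero h.1 h'.1, fun σ hσ => by
    have e : ζ ^ ((f - f') (c σ)).val * ζ ^ (f' (c σ)).val = ζ ^ (f (c σ)).val := by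
      rw [← pow_val_add hζ, LinearMap.sub_apply, sub_add_cancel]
    have h0 : ζ ^ (f' (c σ)).val ≠ 0 := pow_ne_zero _ hζ0
    have hb' : b' ≠ 0 := h'.1
    rw [map_div₀, h.2 σ hσ, h'.2 σ hσ, ← e]
    field_simp⟩

theorem IsEig.npow [NeZero p] (hζ : ζ ^ p = 1) (h : IsEig P ζ c f b) (j : ℕ) :
    IsEig P ζ c (j • f) (b ^ j) := by
  induction j with
  | zero =>
    rw [zero_smul, pow_zero]
    exact isEig_zero_one
  | succ j ih =>
    rw [succ_nsmul, pow_succ]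
    exact ih.mul hζ h

theorem IsEig.apply_eq (h : IsEig P ζ c f b) {σ : GQ} (hσ : σ ∈ P.inertiaSubgroupIn ℚ)
    (hf : f (c σ) = 0) : σ b = b := by
  rw [h.2 σ hσ, hf, ZMod.val_zero, pow_zero, one_mul]

theorem IsEig.apply_ne [NeZero p] (hprim : IsPrimitiveRoot ζ p) (h : IsEig P ζ c f b) {σ : GQ}
    (hσ : σ ∈ P.inertiaSubgroupIn ℚ) (hf : f (c σ) ≠ 0) : σ b ≠ b := by
  intro hcon
  rw [h.2 σ hσ] at hcon
  have h1 : ζ ^ (f (c σ)).val = 1 := by
    have h2 : ζ ^ (f (c σ)).val * b = 1 * b := by rw [hcon, one_mul]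
    exact mul_right_cancel₀ h.1 h2
  have h3 := (hprim.pow_eq_one_iff_dvd _).1 h1
  have h4 : (f (c σ)).val < p := ZMod.val_lt _
  have h5 : (f (c σ)).val ≠ 0 := fun h0 => hf ((ZMod.val_eq_zero _).1 h0)
  exact absurd (Nat.le_of_dvd (Nat.pos_of_ne_zero h5) h3) (not_le.2 h4)

theorem not_dvd_val [NeZero p] {x : ZMod p} (hx : x ≠ 0) : ¬ p ∣ x.val := by
  intro h3
  have h4 : x.val < p := ZMod.val_lt _
  have h5 : x.val ≠ 0 := fun h0 => hx ((ZMod.val_eq_zero _).1 h0)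
  exact absurd (Nat.le_of_dvd (Nat.pos_of_ne_zero h5) h3) (not_le.2 h4)

theorem peu_zero : Peu P ζ c (0 : Module.Dual (ZMod p) L) :=
  ⟨1, 0, isEig_zero_one, P.zero_mem, IFix.zero, by rw [one_pow, mul_zero, add_zero]⟩

theorem Peu.add [NeZero p] (hζ : ζ ^ p = 1) (h : Peu P ζ c f) (h' : Peu P ζ c f')
    (hpP : (p : Qb) ∈ P) : Peu P ζ c (f + f') := by
  obtain ⟨b, a, hb, haP, haI, hba⟩ := h
  obtain ⟨b', a', hb', ha'P, ha'I, hba'⟩ := h'
  refine ⟨b * b', a + a' + p * a * a', hb.mul hζ hb',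
    P.add_mem _ _ (P.add_mem _ _ haP ha'P) (P.mul_mem _ _ (P.mul_mem _ _ hpP haP) ha'P),
    (haI.add ha'I).add (((IFix.natCast p).mul haI).mul ha'I), ?_⟩
  rw [mul_pow, hba, hba']
  ring

end Eig

namespace Setup

variable {p : ℕ} [Fact p.Prime] {P : ValuationSubring Qb} {ζ : Qb} {L : Type*} [AddCommGroup L]
  [Module (ZMod p) L] {ω : GQ → ZMod p} {c : GQ → L} (S : Setup p P ζ ω c)

include S

theorem zeta_ne_zero : ζ ≠ 0 := by
  have hp : p.Prime := Fact.out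
  rintro rfl
  have h := S.hζ
  rw [zero_pow hp.ne_zero] at h
  exact zero_ne_one h

set_option linter.unusedSectionVars false in
theorem p_mem : (p : Qb) ∈ P := (P.valuation_le_one_iff _).1 (val_p_lt_one S.hP).le

/-- **(K1)** Kummer generators exist for every functional (twisted Hilbert 90 on `I`). -/
theorem exists_isEig (f : Module.Dual (ZMod p) L) : ∃ b : Qb, IsEig P ζ c f b := by
  let g : ↥(P.inertiaSubgroupIn ℚ) → ZMod p := fun σ => f (c (σ : GQ))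
  have hg : g ∈ Zcyc (P.inertiaSubgroupIn ℚ) ω := by
    obtain ⟨L₀, hfin, hL₀⟩ := S.hlev
    refine ⟨⟨L₀, hfin, fun σ s hs => ?_⟩, fun σ τ => ?_⟩
    · show f (c ((σ : GQ) * (s : GQ))) = f (c (σ : GQ))
      rw [S.hc _ σ.2 _ s.2, hL₀ _ s.2 hs, smul_zero, add_zero]
    · show f (c ((σ : GQ) * (τ : GQ))) = f (c (σ : GQ)) + ω σ * f (c (τ : GQ))
      rw [S.hc _ σ.2 _ τ.2, map_add, map_smul, smul_eq_mul]
  obtain ⟨b, hb0, hb⟩ := exists_kummer_gen (P.inertiaSubgroupIn ℚ) S.prim ω S.hω g hg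
  exact ⟨b, hb0, fun σ hσ => hb ⟨σ, hσ⟩⟩

/-- **Peu or très.** -/
theorem peu_or_tres (f : Module.Dual (ZMod p) L) :
    Peu P ζ c f ∨ ∃ j : ℕ, 0 < j ∧ j < p ∧ Tres P ζ c (j • f) := by
  have hp : p.Prime := Fact.out
  have : NeZero p := ⟨hp.ne_zero⟩
  obtain ⟨b, hb⟩ := S.exists_isEig f
  rcases kummer_normal_form S.hP hb.1 (hb.pow_ifix S.hζ) with
    ⟨κ, a, hκ0, hκI, haP, haI, h⟩ | ⟨j, κ, ε, hj0, hjp, hκ0, hκI, hε, hεI, h⟩
  · exact Or.inl ⟨b / κ, a, hb.div_fix hκ0 hκI, haP, haI, h⟩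
  · exact Or.inr ⟨j, hj0, hjp, b ^ j / κ, ε, (hb.npow S.hζ j).div_fix hκ0 hκI, hε, hεI, h⟩

/-- The difference of two "très" functionals is "peu". -/
theorem tres_sub {f f' : Module.Dual (ZMod p) L} (h : Tres P ζ c f) (h' : Tres P ζ c f') :
    Peu P ζ c (f - f') := by
  have hp : p.Prime := Fact.out
  have : NeZero p := ⟨hp.ne_zero⟩
  have hp0 : (p : Qb) ≠ 0 := p_ne_zero' hp
  obtain ⟨b, ε, hb, hε, hεI, hbε⟩ := h
  obtain ⟨b', ε', hb', hε', hε'I, hbε'⟩ := h'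
  have hε'0 : ε' ≠ 0 := by
    rintro rfl
    rw [map_zero] at hε'
    exact zero_ne_one hε'
  have hv : P.valuation (ε / ε') = 1 := by rw [map_div₀, hε, hε', div_one]
  obtain ⟨α, a, hαv, hαI, haP, haI, hαa⟩ := exists_pth_root_unit S.hP hv (hεI.div hε'I)
  have hα0 : α ≠ 0 := by
    rintro rfl
    rw [map_zero] at hαv
    exact zero_ne_one hαv
  refine ⟨b / b' / α, a, (hb.div S.hζ S.zeta_ne_zero hb').div_fix hα0 hαI, haP, haI, ?_⟩
  have h1 : (b / b') ^ p = ε / ε' := by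
    rw [div_pow, hbε, hbε']
    field_simp
  rw [div_pow, h1, hαa]
  have h3 : α ^ p ≠ 0 := pow_ne_zero _ hα0
  field_simp

/-- The "peu" functionals form a subspace. -/
def peuSub : Submodule (ZMod p) (Module.Dual (ZMod p) L) where
  carrier := {f | Peu P ζ c f}
  add_mem' := by
    intro f f' h h'
    have hp : p.Prime := Fact.out
    have : NeZero p := ⟨hp.ne_zero⟩
    exact Peu.add S.hζ h h' S.p_mem
  zero_mem' := peu_zero
  smul_mem' := by
    intro a f h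
    have hp : p.Prime := Fact.out
    have : NeZero p := ⟨hp.ne_zero⟩
    have key : ∀ n : ℕ, Peu P ζ c (n • f) := by
      intro n
      induction n with
      | zero =>
        rw [zero_smul]
        exact peu_zero
      | succ n ih =>
        rw [succ_nsmul]
        exact Peu.add S.hζ ih h S.p_mem
    have e : a • f = a.val • f := by
      rw [← Nat.cast_smul_eq_nsmul (ZMod p), ZMod.natCast_zmod_val]
    show Peu P ζ c (a • f)
    rw [e]
    exact key _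

theorem mem_peuSub (f : Module.Dual (ZMod p) L) : f ∈ S.peuSub ↔ Peu P ζ c f := Iff.rfl

/-- In the "très" case every functional is "peu" modulo a multiple of the "très" one. -/
theorem peu_or_smul_sub {f₀ : Module.Dual (ZMod p) L} (h₀ : Tres P ζ c f₀)
    (f : Module.Dual (ZMod p) L) :
    f ∈ S.peuSub ∨ ∃ j : ZMod p, j ≠ 0 ∧ j • f - f₀ ∈ S.peuSub := by
  have hp : p.Prime := Fact.out
  rcases S.peu_or_tres f with h | ⟨j, hj0, hjp, h⟩
  · exact Or.inl h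
  · refine Or.inr ⟨(j : ZMod p), ?_, ?_⟩
    · intro h0
      rw [ZMod.natCast_eq_zero_iff] at h0
      exact absurd (Nat.le_of_dvd hj0 h0) (not_le.2 hjp)
    · rw [Nat.cast_smul_eq_nsmul]
      exact S.tres_sub h h₀

/-- A "peu" generator moved by an element of `I₁` has `a` a unit. -/
theorem val_eq_one_of_isEig {f : Module.Dual (ZMod p) L} {b a : Qb} (hb : IsEig P ζ c f b)
    (haP : a ∈ P) (haI : IFix P a) (hba : b ^ p = 1 + p * a) {σ : GQ} (hσ : σ ∈ GF P ζ)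
    (hf : f (c σ) ≠ 0) : P.valuation a = 1 := by
  have hp : p.Prime := Fact.out
  have : NeZero p := ⟨hp.ne_zero⟩
  exact val_eq_one_of_apply_ne S.hp2 S.hP S.hζ S.hζ1 hba haP haI hσ.1 hσ.2
    (hb.apply_ne S.prim hσ.1 hf)

end Setup

end Fermat.Agent.Padic.S33.LocKum
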