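/-
S33 / (NC), local-field layer, part 6: the ramification breaks of the compositum
`K'' = Qb^H`, `H = {σ ∈ I₁ | c σ = 0}`, `Γ = I₁/H ≅ (ℤ/p)^s`.

`w` the `Mono` uniformiser of `K''` (`v(w)^((p−1)p^s) = v(p)`).
* `val_apply_sub_le_sq'`  : every `σ ∈ I₁` is wild: `v(σ w − w) ≤ v(w)²`;
* `val_apply_sub_eq_sq`   : if some "peu" functional does not vanish at `c σ` then
  `v(σ w − w) = v(w)²` (break `1`);
* `val_apply_sub_le_tres` : in the "très" case the element `σ₀` killed by all "peu" functionals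
  has `v(σ₀ w − w) ≤ v(w)^(2 + (p−1)p^(s−1))` (break `≥ 1 + (p−1)p^(s−1)`);
* `exists_tres_line`, `exists_peu_ne` : the line `⟨σ₀⟩`.
-/
import Mathlib
import Fermat.Agent.Padic.S33.LocKum.Kummer

set_option autoImplicit false

namespace Fermat.Agent.Padic.S33.LocKum

open Fermat.Agent.S53 Fermat.Agent.TW.Flat Fermat.Agent.TW.Flat.Loc.MonoPf
  Fermat.Agent.TW.KummerCount

local notation "Qb" => AlgebraicClosure ℚ

namespace Setup

variable {p : ℕ} [Fact p.Prime] {P : ValuationSubring Qb} {ζ : Qb} {L : Type*} [AddCommGroup L]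
  [Module (ZMod p) L] {ω : GQ → ZMod p} {c : GQ → L} (S : Setup p P ζ ω c)

include S

/-! ### More on the subgroups -/

theorem c_pow_of_gf {σ : GQ} (hσ : σ ∈ GF P ζ) (n : ℕ) : c (σ ^ n) = n • c σ := by
  induction n with
  | zero => rw [pow_zero, zero_smul, S.c_one]
  | succ n ih =>
    rw [pow_succ, S.c_mul_of_gf (pow_mem hσ n) hσ.1, ih, succ_nsmul]

theorem pow_p_mem_stab {σ : GQ} (hσ : σ ∈ GF P ζ) : σ ^ p ∈ S.stab :=
  ⟨pow_mem hσ p, by rw [S.c_pow_of_gf hσ, nsmul_p_eq_zero]⟩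

theorem conj_mem_stab {σ h : GQ} (hσ : σ ∈ GF P ζ) (hh : h ∈ S.stab) : σ⁻¹ * h * σ ∈ S.stab := by
  refine ⟨mul_mem (mul_mem (inv_mem hσ) hh.1) hσ, ?_⟩
  rw [S.c_mul_of_gf (mul_mem (inv_mem hσ) hh.1) hσ.1, S.c_mul_of_gf (inv_mem hσ) hh.1.1,
    S.c_inv_of_gf hσ, hh.2, add_zero, neg_add_cancel]

/-- The image of `c` on `I₁`, as a subspace. -/
def range₁ : Submodule (ZMod p) L where
  carrier := {l | ∃ σ ∈ GF P ζ, c σ = l}
  add_mem' := by
    rintro _ _ ⟨σ, hσ, rfl⟩ ⟨τ, hτ, rfl⟩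
    exact ⟨σ * τ, mul_mem hσ hτ, S.c_mul_of_gf hσ hτ.1⟩
  zero_mem' := ⟨1, one_mem _, S.c_one⟩
  smul_mem' := by
    rintro a _ ⟨σ, hσ, rfl⟩
    refine ⟨σ ^ a.val, pow_mem hσ _, ?_⟩
    rw [S.c_pow_of_gf hσ, ← Nat.cast_smul_eq_nsmul (ZMod p), ZMod.natCast_zmod_val]

theorem mem_range₁ (l : L) : l ∈ S.range₁ ↔ ∃ σ ∈ GF P ζ, c σ = l := Iff.rfl

/-! ### The top level -/

/-- The monogenic context of `K'' = Qb^H`: `[I₁ : H] = p^s`, coset representatives `τ` of `H` in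
the inertia group and the uniformiser `w`. -/
structure Top (s : ℕ) (τ : Fin ((p - 1) * p ^ s) → GQ) (w : Qb) : Prop where
  hs : S.stab.relIndex (GF P ζ) = p ^ s
  ctx : Ctx P (-(p : Qb)) S.stab ((p - 1) * p ^ s) τ
  unif : Unif P (-(p : Qb)) S.stab w ((p - 1) * p ^ s)

theorem exists_top [Finite L] : ∃ (s : ℕ) (τ : Fin ((p - 1) * p ^ s) → GQ) (w : Qb),
    S.Top s τ w := by
  obtain ⟨s, hs, hn⟩ := S.exists_relIndex_stab_inertia
  have h0 := S.stab_relIndex_ne_zero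
  have hr := exists_reps S.stab (P.inertiaSubgroupIn ℚ) h0
  rw [hn] at hr h0
  obtain ⟨τ, hτ, hcos⟩ := hr
  have c₀ : Ctx P (-(p : Qb)) S.stab ((p - 1) * p ^ s) τ :=
    ctx_one p P S.hP S.stab (S.stab_le.trans (gf_le_inertia P ζ)) S.stab_open _
      (Nat.pos_of_ne_zero h0) τ hτ hcos
  obtain ⟨w, u⟩ := exists_unif_full c₀
  exact ⟨s, τ, w, hs, c₀, u⟩

variable {s : ℕ} {τ : Fin ((p - 1) * p ^ s) → GQ} {w : Qb}

omit S in
theorem Top.w_mem {S : Setup p P ζ ω c} (T : S.Top s τ w) : w ∈ P := unif_mem T.unif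

omit S in
theorem Top.val_pos {S : Setup p P ζ ω c} (T : S.Top s τ w) :
    (0 : P.ValueGroup) < P.valuation w :=
  zero_lt_iff.2 T.unif.ne

omit S in
theorem Top.val_pow {S : Setup p P ζ ω c} (T : S.Top s τ w) :
    P.valuation w ^ ((p - 1) * p ^ s) = P.valuation (p : Qb) := by
  have h := T.unif.pow
  rwa [Valuation.map_neg] at h

set_option linter.unusedSectionVars false in
theorem mem_gf_neg_p_of_gf {σ : GQ} (hσ : σ ∈ GF P ζ) : σ ∈ GF P (-(p : Qb)) :=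
  (mem_gf_neg_p p P σ).2 hσ.1

/-- Every element of `I₁` is wild. -/
theorem val_apply_sub_le_sq' (T : S.Top s τ w) {σ : GQ} (hσ : σ ∈ GF P ζ) :
    P.valuation (σ w - w) ≤ P.valuation w ^ 2 :=
  val_apply_sub_le_sq T.unif (Fact.out : p.Prime) S.hP hσ.1 (S.pow_p_mem_stab hσ)
    fun _ hh => S.conj_mem_stab hσ hh

/-- Coset representatives of `H` in `H_f`, as a finite set with the properties used by the
transfer lemmas. -/
theorem exists_repSet (T : S.Top s τ w) (f : Module.Dual (ZMod p) L)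
    {m : ℕ} (hm : S.stab.relIndex (S.stabF f) = m) (hm0 : m ≠ 0) :
    ∃ (Tset : Finset GQ) (t₀ : GQ), Tset.card = m ∧ t₀ ∈ Tset ∧ t₀ ∈ S.stab ∧
      (∀ t ∈ Tset, t ∈ S.stabF f) ∧ (∀ t ∈ Tset, t ≠ t₀ → t ∉ S.stab) ∧
      Set.InjOn (fun t : GQ => t w) (Tset : Set GQ) ∧
      ∀ h ∈ S.stabF f, ∀ t ∈ Tset, ∃ t' ∈ Tset, h (t w) = t' w := by
  classical
  subst hm
  obtain ⟨ρ, hρmem, hρcos⟩ := exists_reps S.stab (S.stabF f) hm0
  have huniq : ∀ i j, (ρ j)⁻¹ * ρ i ∈ S.stab → j = i := by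
    intro i j hij
    have h1 : (ρ i)⁻¹ * ρ i ∈ S.stab := by
      rw [inv_mul_cancel]
      exact one_mem _
    exact (hρcos (ρ i) (hρmem i)).unique hij h1
  have hρinj : Function.Injective ρ := by
    intro i j hij
    have h1 : (ρ j)⁻¹ * ρ i ∈ S.stab := by
      rw [hij, inv_mul_cancel]
      exact one_mem _
    exact (huniq i j h1).symm
  obtain ⟨i₀, hi₀, -⟩ := hρcos 1 (one_mem _)
  rw [mul_one] at hi₀
  have hi₀' : ρ i₀ ∈ S.stab := by simpa using inv_mem hi₀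
  have hfixw : ∀ h ∈ S.stab, h w = w := T.unif.fixH
  refine ⟨Finset.univ.image ρ, ρ i₀, ?_, Finset.mem_image_of_mem _ (Finset.mem_univ _), hi₀',
    ?_, ?_, ?_, ?_⟩
  · rw [Finset.card_image_of_injective _ hρinj, Finset.card_univ, Fintype.card_fin]
  · intro t ht
    obtain ⟨i, -, rfl⟩ := Finset.mem_image.1 ht
    exact hρmem i
  · intro t ht hne hmem
    obtain ⟨i, -, rfl⟩ := Finset.mem_image.1 ht
    apply hne
    have h1 : (ρ i₀)⁻¹ * ρ i ∈ S.stab := mul_mem (inv_mem hi₀') hmem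
    rw [huniq i i₀ h1]
  · intro t ht t' ht' htt'
    obtain ⟨i, -, rfl⟩ := Finset.mem_image.1 ht
    obtain ⟨j, -, rfl⟩ := Finset.mem_image.1 ht'
    have htt'' : ρ i w = ρ j w := htt'
    have hmem : (ρ j)⁻¹ * ρ i ∈ GF P (-(p : Qb)) :=
      mul_mem (inv_mem (S.mem_gf_neg_p_of_gf (S.stabF_le f (hρmem j))))
        (S.mem_gf_neg_p_of_gf (S.stabF_le f (hρmem i)))
    have hfix : ((ρ j)⁻¹ * ρ i) w = w := by
      rw [AlgEquiv.mul_apply, htt'', ← AlgEquiv.mul_apply, inv_mul_cancel, AlgEquiv.one_apply]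
    have h1 : (ρ j)⁻¹ * ρ i ∈ S.stab := Ctx.stab T.ctx T.unif hmem hfix
    rw [huniq i j h1]
  · intro h hh t ht
    obtain ⟨i, -, rfl⟩ := Finset.mem_image.1 ht
    obtain ⟨j, hj, -⟩ := hρcos (h * ρ i) (mul_mem hh (hρmem i))
    refine ⟨ρ j, Finset.mem_image_of_mem _ (Finset.mem_univ _), ?_⟩
    have e : h * ρ i = ρ j * ((ρ j)⁻¹ * (h * ρ i)) := by group
    have e2 : h (ρ i w) = (h * ρ i) w := rfl
    rw [e2, e, AlgEquiv.mul_apply, hfixw _ hj]

/-- The index of `H` in `H_f` when `f ∘ c` does not vanish on `I₁`. -/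
theorem relIndex_stab_stabF (T : S.Top s τ w) (f : Module.Dual (ZMod p) L) {σ : GQ}
    (hσ : σ ∈ GF P ζ) (hfσ : f (c σ) ≠ 0) :
    1 ≤ s ∧ S.stab.relIndex (S.stabF f) = p ^ (s - 1) := by
  have hp : p.Prime := Fact.out
  have h1 := Subgroup.relIndex_mul_relIndex S.stab (S.stabF f) (GF P ζ) (S.stab_le_stabF f)
    (S.stabF_le f)
  rw [S.relIndex_stabF f hσ hfσ, T.hs] at h1
  have hs1 : 1 ≤ s := by
    by_contra h
    have h0 : s = 0 := by omega
    subst h0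
    rw [pow_zero] at h1
    have h2 : p ∣ 1 := ⟨_, by rw [mul_comm]; exact h1.symm⟩
    exact hp.one_lt.ne' (Nat.dvd_one.1 h2)
  refine ⟨hs1, ?_⟩
  have e : p ^ s = p ^ (s - 1) * p := by
    rw [← pow_succ]
    congr 1
    omega
  rw [e] at h1
  exact Nat.eq_of_mul_eq_mul_right hp.pos h1

/-- **Break 1.** If a "peu" functional does not vanish at `c σ` (`σ ∈ I₁`), then
`v(σ w − w) = v(w)²`. -/
theorem val_apply_sub_eq_sq (T : S.Top s τ w) {f : Module.Dual (ZMod p) L} (hf : Peu P ζ c f)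
    {σ : GQ} (hσ : σ ∈ GF P ζ) (hfσ : f (c σ) ≠ 0) :
    P.valuation (σ w - w) = P.valuation w ^ 2 := by
  classical
  have hp : p.Prime := Fact.out
  have : NeZero p := ⟨hp.ne_zero⟩
  obtain ⟨b, a, hb, haP, haI, hba⟩ := hf
  have ha1 : P.valuation a = 1 := S.val_eq_one_of_isEig hb haP haI hba hσ hfσ
  have hw'u : P.valuation ((ζ - 1) / (b - 1)) ^ (p * (p - 1)) = P.valuation (p : Qb) :=
    val_peu_unif S.hP S.hζ S.hζ1 hba ha1
  have hw'br : P.valuation (σ ((ζ - 1) / (b - 1)) - (ζ - 1) / (b - 1)) =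
      P.valuation ((ζ - 1) / (b - 1)) ^ 2 :=
    val_apply_sub_peu S.hP S.hζ S.hζ1 hba ha1 hσ.1 hσ.2 (not_dvd_val hfσ) (hb.2 σ hσ.1)
  have hw'fix : ∀ h ∈ S.stabF f, h ((ζ - 1) / (b - 1)) = (ζ - 1) / (b - 1) := by
    intro h hh
    rw [map_div₀, map_sub, map_sub, map_one, hh.1.2, hb.apply_eq hh.1.1 hh.2]
  generalize (ζ - 1) / (b - 1) = w' at hw'u hw'br hw'fix
  have hpp : 0 < p * (p - 1) := Nat.mul_pos hp.pos (by have := hp.two_le; omega)
  have hw'lt : P.valuation w' < 1 := by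
    by_contra hcon
    have h1 := one_le_pow₀ (not_lt.1 hcon) (n := p * (p - 1))
    rw [hw'u] at h1
    exact absurd (val_p_lt_one S.hP) (not_lt.2 h1)
  have hw'P : w' ∈ P := (P.valuation_le_one_iff _).1 hw'lt.le
  obtain ⟨hs1, hm⟩ := S.relIndex_stab_stabF T f hσ hfσ
  obtain ⟨Tset, t₀, hcard, ht₀, ht₀H, hTmem, -, hinj, -⟩ :=
    S.exists_repSet T f hm (pow_ne_zero _ hp.ne_zero)
  obtain ⟨z, hzP, hz⟩ := exists_eq_prod_mul T.ctx T.unif hw'P
    (fun h hh => hw'fix h (S.stab_le_stabF f hh)) Tset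
    (fun t ht => ⟨S.mem_gf_neg_p_of_gf (S.stabF_le f (hTmem t ht)), hw'fix t (hTmem t ht)⟩)
    hinj (S.mem_gf_neg_p_of_gf hσ)
  have hwild : ∀ t ∈ Tset, P.valuation (w - σ (t w)) ≤ P.valuation w ^ 2 := by
    intro t ht
    rw [Valuation.map_sub_swap]
    exact S.val_apply_sub_le_sq' T (mul_mem hσ (S.stabF_le f (hTmem t ht)))
  have ht₀w : t₀ w = w := T.unif.fixH t₀ ht₀H
  have hprod : ∏ t ∈ Tset, P.valuation (w - σ (t w)) ≤
      P.valuation (σ w - w) * (P.valuation w ^ 2) ^ (p ^ (s - 1) - 1) := by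
    rw [← Finset.mul_prod_erase Tset _ ht₀, ht₀w, Valuation.map_sub_swap]
    refine mul_le_mul' le_rfl ?_
    have h2 := Finset.prod_le_pow_card (Tset.erase t₀) (fun t => P.valuation (w - σ (t w)))
      (P.valuation w ^ 2) (fun t ht => hwild t (Finset.mem_of_mem_erase ht))
    rwa [Finset.card_erase_of_mem ht₀, hcard] at h2
  have h1 : P.valuation w' ^ 2 ≤
      P.valuation (σ w - w) * (P.valuation w ^ 2) ^ (p ^ (s - 1) - 1) := by
    rw [← hw'br, Valuation.map_sub_swap, hz, map_mul, map_prod]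
    calc (∏ t ∈ Tset, P.valuation (w - σ (t w))) * P.valuation z
        ≤ (∏ t ∈ Tset, P.valuation (w - σ (t w))) * 1 :=
          mul_le_mul' le_rfl ((P.valuation_le_one_iff z).2 hzP)
      _ = ∏ t ∈ Tset, P.valuation (w - σ (t w)) := mul_one _
      _ ≤ _ := hprod
  have hvw' : P.valuation w' = P.valuation w ^ (p ^ (s - 1)) := by
    have e : (P.valuation w ^ (p ^ (s - 1))) ^ (p * (p - 1)) =
        P.valuation w' ^ (p * (p - 1)) := by
      rw [hw'u, ← T.val_pow, ← pow_mul]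
      congr 1
      have e1 : p ^ s = p ^ (s - 1) * p := by
        rw [← pow_succ]
        congr 1
        omega
      rw [e1]
      ring
    exact ((pow_left_inj₀ zero_le zero_le hpp.ne').1 e).symm
  apply le_antisymm (S.val_apply_sub_le_sq' T hσ)
  rw [hvw'] at h1
  have hpos : (0 : P.ValueGroup) < (P.valuation w ^ 2) ^ (p ^ (s - 1) - 1) :=
    pow_pos (pow_pos T.val_pos 2) _
  have e2 : (P.valuation w ^ p ^ (s - 1)) ^ 2 =
      P.valuation w ^ 2 * (P.valuation w ^ 2) ^ (p ^ (s - 1) - 1) := by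
    rw [← pow_succ', ← pow_mul, ← pow_mul, mul_comm]
    congr 2
    have h3 : 0 < p ^ (s - 1) := pow_pos hp.pos _
    omega
  rw [e2] at h1
  exact le_of_mul_le_mul_right h1 hpos

omit S in
/-- A uniformiser of a level of index `p (p − 1)` has valuation `v(w)^(p^(s−1))`. -/
theorem Top.val_eq_pow {S : Setup p P ζ ω c} (T : S.Top s τ w) (hs1 : 1 ≤ s) {w' : Qb}
    (hw' : P.valuation w' ^ (p * (p - 1)) = P.valuation (p : Qb)) :
    P.valuation w' = P.valuation w ^ (p ^ (s - 1)) := by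
  have hp : p.Prime := Fact.out
  have hpp : 0 < p * (p - 1) := Nat.mul_pos hp.pos (by have := hp.two_le; omega)
  have e : (P.valuation w ^ (p ^ (s - 1))) ^ (p * (p - 1)) =
      P.valuation w' ^ (p * (p - 1)) := by
    rw [hw', ← T.val_pow, ← pow_mul]
    congr 1
    have e1 : p ^ s = p ^ (s - 1) * p := by
      rw [← pow_succ]
      congr 1
      omega
    rw [e1]
    ring
  exact ((pow_left_inj₀ zero_le zero_le hpp.ne').1 e).symm

/-- In the "très" case, a vector off the line `𝔽_p · l₀` is detected by a "peu" functional. -/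
theorem exists_peu_ne {f₀ : Module.Dual (ZMod p) L} (h₀ : Tres P ζ c f₀) {l₀ : L}
    (hf₀ : f₀ l₀ ≠ 0) (hkill : ∀ f ∈ S.peuSub, f l₀ = 0) {l : L} (hl : ∀ j : ℕ, l ≠ j • l₀) :
    ∃ f ∈ S.peuSub, f l ≠ 0 := by
  by_contra hcon
  push Not at hcon
  have hl' : l - (f₀ l / f₀ l₀) • l₀ = 0 := by
    rw [← Module.forall_dual_apply_eq_zero_iff (ZMod p)]
    intro f
    have hf₀l' : f₀ (l - (f₀ l / f₀ l₀) • l₀) = 0 := by
      rw [map_sub, map_smul, smul_eq_mul, div_mul_cancel₀ _ hf₀, sub_self]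
    rcases S.peu_or_smul_sub h₀ f with hf | ⟨j, hj, hjf⟩
    · rw [map_sub, map_smul, hcon f hf, hkill f hf, smul_zero, sub_zero]
    · have h1 : (j • f - f₀) (l - (f₀ l / f₀ l₀) • l₀) = 0 := by
        rw [map_sub, map_smul, hcon _ hjf, hkill _ hjf, smul_zero, sub_zero]
      rw [LinearMap.sub_apply, LinearMap.smul_apply, hf₀l', sub_zero, smul_eq_mul] at h1
      exact (mul_eq_zero.1 h1).resolve_left hj
  apply hl (f₀ l / f₀ l₀).val
  rw [← Nat.cast_smul_eq_nsmul (ZMod p), ZMod.natCast_zmod_val]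
  exact sub_eq_zero.1 hl'

/-- In the "très" case there is `σ₀ ∈ I₁` killed by all "peu" functionals but not by `f₀`. -/
theorem exists_tres_line [Finite L] {f₀ : Module.Dual (ZMod p) L} (h₀ : Tres P ζ c f₀) :
    ∃ σ₀ ∈ GF P ζ, f₀ (c σ₀) ≠ 0 ∧ ∀ f ∈ S.peuSub, f (c σ₀) = 0 := by
  have hp : p.Prime := Fact.out
  have : NeZero p := ⟨hp.ne_zero⟩
  have hnot : ¬ ∃ f' ∈ S.peuSub, ∀ l ∈ S.range₁, f₀ l = f' l := by
    rintro ⟨f', hf', hagree⟩
    obtain ⟨b', a', hb', ha'P, ha'I, hba'⟩ := hf'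
    obtain ⟨b₀, ε, hb₀, hε, hεI, hbε⟩ := h₀
    have hy := hb₀.div S.hζ S.zeta_ne_zero hb'
    have hyfix : ∀ σ ∈ GF P ζ, σ (b₀ / b') = b₀ / b' := fun σ hσ =>
      hy.apply_eq hσ.1 (by rw [LinearMap.sub_apply, hagree _ ⟨σ, hσ, rfl⟩, sub_self])
    have hvpa : P.valuation ((p : Qb) * a') < 1 := by
      rw [map_mul]
      calc P.valuation (p : Qb) * P.valuation a' ≤ P.valuation (p : Qb) * 1 :=
            mul_le_mul' le_rfl ((P.valuation_le_one_iff a').2 ha'P)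
        _ = P.valuation (p : Qb) := mul_one _
        _ < 1 := val_p_lt_one S.hP
    have hvy : P.valuation (b₀ / b') ^ p = P.valuation (p : Qb) := by
      rw [← map_pow, div_pow, hbε, hba', map_div₀, map_mul, hε, mul_one,
        P.valuation.map_add_eq_of_lt_left (by rw [map_one]; exact hvpa), map_one, div_one]
    have hn₁ := S.gf_relIndex_ne_zero
    have hr := exists_reps (GF P ζ) (P.inertiaSubgroupIn ℚ) hn₁
    rw [S.relIndex_gf] at hr hn₁
    obtain ⟨τ₁, hτ₁, hcos₁⟩ := hr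
    have c₁ : Ctx P (-(p : Qb)) (GF P ζ) (p - 1) τ₁ :=
      ctx_one p P S.hP (GF P ζ) (gf_le_inertia P ζ) S.gf_open _ (Nat.pos_of_ne_zero hn₁) τ₁ hτ₁
        hcos₁
    obtain ⟨Pi₁, u₁⟩ := exists_unif_full c₁
    obtain ⟨t, ht⟩ := u₁.val (b₀ / b') hy.1 hyfix
    have h2 := u₁.pow
    rw [Valuation.map_neg, ← hvy, ht, ← zpow_natCast, ← zpow_natCast, ← zpow_mul] at h2
    have hpos : (0 : P.ValueGroup) < P.valuation Pi₁ := zero_lt_iff.2 u₁.ne
    have h3 := (zpow_right_inj₀ hpos u₁.lt.ne).1 h2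
    have h4 : (p : ℤ) ∣ ((p - 1 : ℕ) : ℤ) := ⟨t, by rw [h3]; ring⟩
    have h5 : p ∣ p - 1 := by exact_mod_cast h4
    have h6 := Nat.le_of_dvd (by have := hp.two_le; omega) h5
    have h7 := hp.two_le
    omega
  obtain ⟨l₀, hl₀, hf₀l₀, hkill⟩ :=
    exists_kill_of_codim_one S.peuSub S.range₁ f₀ (S.peu_or_smul_sub h₀) hnot
  obtain ⟨σ₀, hσ₀, rfl⟩ := hl₀
  exact ⟨σ₀, hσ₀, hf₀l₀, hkill⟩

/-- **The "très" break.** `v(σ₀ w − w) ≤ v(w)^(2 + (p−1) p^(s−1))`. -/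
theorem val_apply_sub_le_tres (T : S.Top s τ w) {f₀ : Module.Dual (ZMod p) L}
    (h₀ : Tres P ζ c f₀) {σ₀ : GQ} (hσ₀ : σ₀ ∈ GF P ζ) (hf₀ : f₀ (c σ₀) ≠ 0)
    (hkill : ∀ f ∈ S.peuSub, f (c σ₀) = 0) :
    1 ≤ s ∧ P.valuation (σ₀ w - w) ≤ P.valuation w ^ (2 + (p - 1) * p ^ (s - 1)) := by
  classical
  have hp : p.Prime := Fact.out
  have : NeZero p := ⟨hp.ne_zero⟩
  obtain ⟨hs1, hm⟩ := S.relIndex_stab_stabF T f₀ hσ₀ hf₀
  refine ⟨hs1, ?_⟩
  have h₀' := h₀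
  obtain ⟨b₀, ε, hb₀, hε, hεI, hbε⟩ := h₀'
  have hw'u : P.valuation ((ζ - 1) / b₀) ^ (p * (p - 1)) = P.valuation (p : Qb) :=
    val_tres_unif S.hζ S.hζ1 hbε hε
  have hw'br : P.valuation (σ₀ ((ζ - 1) / b₀) - (ζ - 1) / b₀) =
      P.valuation ((ζ - 1) / b₀) ^ (p + 1) :=
    val_apply_sub_tres S.hζ S.hζ1 hbε hε hσ₀.2 (not_dvd_val hf₀) (hb₀.2 σ₀ hσ₀.1)
  have hw'fix : ∀ h ∈ S.stabF f₀, h ((ζ - 1) / b₀) = (ζ - 1) / b₀ := by
    intro h hh
    rw [map_div₀, map_sub, map_one, hh.1.2, hb₀.apply_eq hh.1.1 hh.2]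
  generalize (ζ - 1) / b₀ = w' at hw'u hw'br hw'fix
  -- the level `H' = H_{f₀}`
  have hn' : (S.stabF f₀).relIndex (P.inertiaSubgroupIn ℚ) = p * (p - 1) := by
    rw [← Subgroup.relIndex_mul_relIndex _ _ _ (S.stabF_le f₀) (gf_le_inertia P ζ),
      S.relIndex_stabF f₀ hσ₀ hf₀, S.relIndex_gf]
  have h0' := S.stabF_relIndex_ne_zero f₀
  have hr := exists_reps (S.stabF f₀) (P.inertiaSubgroupIn ℚ) h0'
  rw [hn'] at hr h0'
  obtain ⟨τ', hτ', hcos'⟩ := hr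
  have c' : Ctx P (-(p : Qb)) (S.stabF f₀) (p * (p - 1)) τ' :=
    ctx_one p P S.hP (S.stabF f₀) ((S.stabF_le f₀).trans (gf_le_inertia P ζ)) (S.stabF_open f₀) _
      (Nat.pos_of_ne_zero h0') τ' hτ' hcos'
  obtain ⟨y, u'⟩ := exists_unif_full c'
  have hpp : 0 < p * (p - 1) := Nat.pos_of_ne_zero h0'
  have hvy : P.valuation w' = P.valuation y := by
    have h1 := u'.pow
    rw [Valuation.map_neg, ← hw'u] at h1
    exact ((pow_left_inj₀ zero_le zero_le hpp.ne').1 h1).symm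
  have hUI : P.valuation (σ₀ w' - w') = P.valuation (σ₀ y - y) :=
    val_apply_sub_eq c' u' hw'fix hvy (S.mem_gf_neg_p_of_gf hσ₀)
  obtain ⟨Tset, t₀, hcard, ht₀, ht₀H, hTmem, hTne, hinj, hperm⟩ :=
    S.exists_repSet T f₀ hm (pow_ne_zero _ hp.ne_zero)
  have ht₀w : t₀ w = w := T.unif.fixH t₀ ht₀H
  obtain ⟨z, hzP, hz⟩ := exists_prod_eq_mul c' u' T.w_mem Tset
    (fun t ht => S.mem_gf_neg_p_of_gf (S.stabF_le f₀ (hTmem t ht))) hperm ⟨t₀, ht₀, ht₀w⟩ hinj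
    (S.mem_gf_neg_p_of_gf hσ₀)
  -- the factors `t ≠ t₀` have break `1`
  have hbr1 : ∀ t ∈ Tset.erase t₀, P.valuation (w - σ₀ (t w)) = P.valuation w ^ 2 := by
    intro t ht
    have htT := Finset.mem_of_mem_erase ht
    have hne := Finset.ne_of_mem_erase ht
    have htF := hTmem t htT
    have htc : c t ≠ 0 := fun h0 => hTne t htT hne ⟨htF.1, h0⟩
    have hcst : c (σ₀ * t) = c σ₀ + c t := S.c_mul_of_gf hσ₀ htF.1.1
    have hl : ∀ j : ℕ, c σ₀ + c t ≠ j • c σ₀ := by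
      intro j hj
      have h1 := congrArg f₀ hj
      rw [map_add, htF.2, add_zero, map_nsmul] at h1
      have h2 : (j : ZMod p) = 1 := by
        have h3 : ((j : ZMod p) - 1) * f₀ (c σ₀) = 0 := by
          rw [sub_mul, one_mul, ← nsmul_eq_mul, ← h1, sub_self]
        exact sub_eq_zero.1 ((mul_eq_zero.1 h3).resolve_right hf₀)
      apply htc
      have h4 : j • c σ₀ = c σ₀ := by rw [← Nat.cast_smul_eq_nsmul (ZMod p), h2, one_smul]
      rw [h4] at hj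
      exact add_eq_left.1 hj
    obtain ⟨f, hfP, hfl⟩ := S.exists_peu_ne h₀ hf₀ hkill hl
    rw [Valuation.map_sub_swap]
    exact S.val_apply_sub_eq_sq T hfP (mul_mem hσ₀ htF.1) (by rw [hcst]; exact hfl)
  have hprod : ∏ t ∈ Tset, P.valuation (w - σ₀ (t w)) =
      P.valuation (σ₀ w - w) * (P.valuation w ^ 2) ^ (p ^ (s - 1) - 1) := by
    rw [← Finset.mul_prod_erase Tset _ ht₀, ht₀w, Valuation.map_sub_swap,
      Finset.prod_congr rfl hbr1, Finset.prod_const, Finset.card_erase_of_mem ht₀, hcard]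
  have h1 : P.valuation (σ₀ w - w) * (P.valuation w ^ 2) ^ (p ^ (s - 1) - 1) ≤
      P.valuation w' ^ (p + 1) := by
    rw [← hprod, ← map_prod, hz, map_mul, ← hUI, hw'br]
    calc P.valuation w' ^ (p + 1) * P.valuation z ≤ P.valuation w' ^ (p + 1) * 1 :=
          mul_le_mul' le_rfl ((P.valuation_le_one_iff z).2 hzP)
      _ = P.valuation w' ^ (p + 1) := mul_one _
  rw [T.val_eq_pow hs1 hw'u] at h1
  have hpos : (0 : P.ValueGroup) < (P.valuation w ^ 2) ^ (p ^ (s - 1) - 1) :=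
    pow_pos (pow_pos T.val_pos 2) _
  have e2 : (P.valuation w ^ p ^ (s - 1)) ^ (p + 1) =
      P.valuation w ^ (2 + (p - 1) * p ^ (s - 1)) * (P.valuation w ^ 2) ^ (p ^ (s - 1) - 1) := by
    rw [← pow_mul, ← pow_mul, ← pow_add]
    congr 1
    have h3 : 0 < p ^ (s - 1) := pow_pos hp.pos _
    obtain ⟨m, hm'⟩ : ∃ m, p ^ (s - 1) = m + 1 := ⟨p ^ (s - 1) - 1, by omega⟩
    obtain ⟨q, hq⟩ : ∃ q, p = q + 1 := ⟨p - 1, by have := hp.pos; omega⟩
    rw [hm', hq, Nat.add_sub_cancel, Nat.add_sub_cancel]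
    ring
  rw [e2] at h1
  exact le_of_mul_le_mul_right h1 hpos

end Setup

end Fermat.Agent.Padic.S33.LocKum
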