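/-
S33 / (NC), local-field layer, part 8: complements to `Final.lean`.

* `Setup.conj_mem_stab'` : `H = {σ ∈ I₁ | c σ = 0}` is normal in the inertia group `I`;
* `Setup.apply_fixed`    : `σ x` is `H`-fixed if `x` is (`σ ∈ I`);
* `Setup.val_mul_sub_le` : additivity of `σ ↦ (σ w − w)/w²` modulo `w`;
* `Setup.val_apply_sub_apply` : `v(σ w − ρ w) = v((ρ⁻¹σ) w − w)` and `c (ρ⁻¹ σ) = c σ − c ρ`.
-/
import Mathlib
import Fermat.Agent.Padic.S33.LocKum.Final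

set_option autoImplicit false

namespace Fermat.Agent.Padic.S33.LocKum

open Fermat.Agent.S53 Fermat.Agent.TW.Flat Fermat.Agent.TW.Flat.Loc.MonoPf
  Fermat.Agent.TW.KummerCount

local notation "Qb" => AlgebraicClosure ℚ

namespace Setup

variable {p : ℕ} [Fact p.Prime] {P : ValuationSubring Qb} {ζ : Qb} {L : Type*} [AddCommGroup L]
  [Module (ZMod p) L] {ω : GQ → ZMod p} {c : GQ → L} (S : Setup p P ζ ω c)

include S

/-- `H` is normal in the inertia group. -/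
theorem conj_mem_stab' {σ h : GQ} (hσ : σ ∈ P.inertiaSubgroupIn ℚ) (hh : h ∈ S.stab) :
    σ⁻¹ * h * σ ∈ S.stab := by
  have hσi : σ⁻¹ ∈ P.inertiaSubgroupIn ℚ := inv_mem hσ
  have h1 : σ⁻¹ * h * σ ∈ GF P ζ := by
    rw [S.mem_gf_iff]
    refine ⟨mul_mem (mul_mem hσi hh.1.1) hσ, ?_⟩
    rw [S.omega_mul, S.omega_mul, ((S.mem_gf_iff h).1 hh.1).2, mul_one, ← S.omega_mul,
      inv_mul_cancel, S.omega_one]
  refine ⟨h1, ?_⟩
  rw [mul_assoc, S.hc σ⁻¹ hσi (h * σ) (mul_mem hh.1.1 hσ), S.c_mul_of_gf hh.1 hσ, hh.2, zero_add,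
    ← S.hc σ⁻¹ hσi σ hσ, inv_mul_cancel, S.c_one]

/-- The inertia group preserves the fixed field of `H`. -/
theorem apply_fixed {σ : GQ} (hσ : σ ∈ P.inertiaSubgroupIn ℚ) {x : Qb}
    (hx : ∀ h ∈ S.stab, h x = x) : ∀ h ∈ S.stab, h (σ x) = σ x := by
  intro h hh
  have e2 : (σ⁻¹ * h * σ) x = x := hx _ (S.conj_mem_stab' hσ hh)
  have e3 : (σ⁻¹ * h * σ) x = σ⁻¹ (h (σ x)) := rfl
  rw [e3] at e2
  have e4 : σ (σ⁻¹ (h (σ x))) = h (σ x) := by
    rw [← AlgEquiv.mul_apply, mul_inv_cancel, AlgEquiv.one_apply]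
  rw [← e4, e2]

/-- `c (ρ⁻¹ σ) = c σ − c ρ` on `I₁`. -/
theorem c_inv_mul_of_gf {σ ρ : GQ} (hσ : σ ∈ GF P ζ) (hρ : ρ ∈ GF P ζ) :
    c (ρ⁻¹ * σ) = c σ - c ρ := by
  rw [S.c_mul_of_gf (inv_mem hρ) hσ.1, S.c_inv_of_gf hρ]
  abel

omit S in
/-- `v(σ w − ρ w) = v((ρ⁻¹ σ) w − w)` for `ρ` in the inertia group. -/
theorem val_apply_sub_apply {σ ρ : GQ} (hρ : ρ ∈ P.inertiaSubgroupIn ℚ) (w : Qb) :
    P.valuation (σ w - ρ w) = P.valuation ((ρ⁻¹ * σ) w - w) := by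
  have e : σ w - ρ w = ρ ((ρ⁻¹ * σ) w - w) := by
    rw [map_sub, ← AlgEquiv.mul_apply, ← mul_assoc, mul_inv_cancel, one_mul]
  rw [e, Fermat.Agent.Lib.TameProp.val_apply hρ]

variable {s : ℕ} {τ : Fin ((p - 1) * p ^ s) → GQ} {w : Qb}

/-- **Additivity** of `σ ↦ (σ w − w)/w²` modulo the maximal ideal:
`v((σρ) w − w − (σ w − w) − (ρ w − w)) ≤ v(w)³` for `σ, ρ ∈ I₁`. -/
theorem val_mul_sub_le (T : S.Top s τ w) {σ ρ : GQ} (hσ : σ ∈ GF P ζ) (hρ : ρ ∈ GF P ζ) :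
    P.valuation ((σ * ρ) w - w - (σ w - w) - (ρ w - w)) ≤ P.valuation w ^ 3 := by
  have hw0 : w ≠ 0 := Ctx.pi_ne T.unif
  have hvw0 : P.valuation w ≠ 0 := T.unif.ne
  have hfixw := T.unif.fixH
  have hρw : ∀ h ∈ S.stab, h (ρ w) = ρ w := S.apply_fixed hρ.1 hfixw
  obtain ⟨θ, hθ⟩ : ∃ θ : Qb, θ = (ρ w - w) / w ^ 2 := ⟨_, rfl⟩
  have hθfix : ∀ h ∈ S.stab, h θ = θ := by
    intro h hh
    rw [hθ, map_div₀, map_sub, map_pow, hρw h hh, hfixw h hh]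
  have hθP : P.valuation θ ≤ 1 := by
    rw [hθ, map_div₀, map_pow]
    exact div_le_one_of_le₀ (S.val_apply_sub_le_sq' T hρ) zero_le
  have e1 : ρ w = w + w ^ 2 * θ := by
    rw [hθ]
    field_simp
    ring
  have e : (σ * ρ) w - w - (σ w - w) - (ρ w - w) =
      (σ w - w) * (σ w + w) * σ θ + w ^ 2 * (σ θ - θ) := by
    rw [AlgEquiv.mul_apply, e1, map_add, map_mul, map_pow]
    ring
  rw [e]
  apply Valuation.map_add_le
  · rw [map_mul, map_mul]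
    have h1 : P.valuation (σ w - w) ≤ P.valuation w ^ 2 := S.val_apply_sub_le_sq' T hσ
    have h2 : P.valuation (σ w + w) ≤ P.valuation w :=
      Valuation.map_add_le _ (Fermat.Agent.Lib.TameProp.val_apply hσ.1 w).le le_rfl
    have h3 : P.valuation (σ θ) ≤ 1 := by
      rw [Fermat.Agent.Lib.TameProp.val_apply hσ.1]
      exact hθP
    calc P.valuation (σ w - w) * P.valuation (σ w + w) * P.valuation (σ θ)
        ≤ P.valuation w ^ 2 * P.valuation w * 1 := mul_le_mul' (mul_le_mul' h1 h2) h3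
      _ = P.valuation w ^ 3 := by rw [mul_one, ← pow_succ]
  · rw [map_mul, map_pow]
    have h1 : P.valuation (σ θ - θ) < 1 := Fermat.Agent.Lib.TameProp.val_sub_lt hσ.1 hθP
    have h2 : ∀ h ∈ S.stab, h (σ θ - θ) = σ θ - θ := by
      intro h hh
      rw [map_sub, S.apply_fixed hσ.1 hθfix h hh, hθfix h hh]
    obtain ⟨x', hx'P, -, hx'⟩ := Ctx.div_pi T.unif h2 h1
    rw [hx', map_mul]
    calc P.valuation w ^ 2 * (P.valuation w * P.valuation x')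
        ≤ P.valuation w ^ 2 * (P.valuation w * 1) :=
          mul_le_mul' le_rfl (mul_le_mul' le_rfl ((P.valuation_le_one_iff x').2 hx'P))
      _ = P.valuation w ^ 3 := by rw [mul_one, ← pow_succ]

end Setup

end Fermat.Agent.Padic.S33.LocKum
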