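/-
S33 / (NC), local-field layer, part 7: the statement consumed by the (NC) algebra.

For an `ω`-twisted cocycle `c : I → L` (`L` a finite group killed by `p`, `I` the inertia group
at a place over an odd prime `p`), constant on the cosets of an open subgroup, let
`H = {σ ∈ I | σ ζ = ζ ∧ c σ = 0}` and `K'' = Qb^H`.  Then `[I₁ : H] = p^s` and `K''` has a
uniformiser `w` (`w^((p−1)p^s) = p · unit`) such that
* every `H`-fixed integral element is a combination of `1, w, …, w^((p−1)p^s − 1)` with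
  integral inertia-fixed coefficients;
* every `H`-fixed element of the maximal ideal has valuation `≤ v(w)`;
* every `σ ∈ I₁` is wild, `v(σ w − w) ≤ v(w)²`;
* either all `σ ∈ I₁ ∖ H` have break `1` (`v(σ w − w) = v(w)²`), or there is a line `⟨σ₀⟩`
  with break `≥ 1 + (p−1)p^(s−1)` off which all breaks are `1`.
-/
import Mathlib
import Fermat.Agent.Padic.S33.LocKum.Break

set_option autoImplicit false

namespace Fermat.Agent.Padic.S33.LocKum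

open Fermat.Agent.S53 Fermat.Agent.TW.Flat Fermat.Agent.TW.Flat.Loc.MonoPf
  Fermat.Agent.TW.KummerCount

local notation "Qb" => AlgebraicClosure ℚ

/-- The mod `p` cyclotomic character as a function with values in `ZMod p`. -/
theorem exists_omega {p : ℕ} [Fact p.Prime] {ζ : Qb} (hζ : ζ ^ p = 1) (hζ1 : ζ ≠ 1) :
    ∃ ω : GQ → ZMod p, ∀ σ : GQ, σ ζ = ζ ^ (ω σ).val := by
  have hp : p.Prime := Fact.out
  have : NeZero p := ⟨hp.ne_zero⟩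
  have hprim : IsPrimitiveRoot ζ p := isPrimitiveRoot_of hζ hζ1
  have h : ∀ σ : GQ, ∃ i : ℕ, i < p ∧ ζ ^ i = σ ζ := by
    intro σ
    have h1 : (σ ζ) ^ p = 1 := by rw [← map_pow, hζ, map_one]
    exact hprim.eq_pow_of_pow_eq_one h1
  choose i hi hi' using h
  refine ⟨fun σ => (i σ : ZMod p), fun σ => ?_⟩
  rw [ZMod.val_natCast_of_lt (hi σ), hi' σ]

/-- The `Setup` attached to a cocycle with values in a group killed by `p`. -/
theorem exists_setup (p : ℕ) [Fact p.Prime] (hp2 : p ≠ 2)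
    (P : ValuationSubring Qb) (hP : P.LiesOverPrime p) (ζ : Qb) (hζ : ζ ^ p = 1) (hζ1 : ζ ≠ 1)
    {L : Type*} [AddCommGroup L] [Module (ZMod p) L] (c : GQ → L)
    (hc : ∀ σ ∈ P.inertiaSubgroupIn ℚ, ∀ τ ∈ P.inertiaSubgroupIn ℚ, ∀ j : ℕ, σ ζ = ζ ^ j →
      c (σ * τ) = c σ + j • c τ)
    (hlev : ∃ L₀ : IntermediateField ℚ Qb, FiniteDimensional ℚ L₀ ∧
      ∀ σ ∈ P.inertiaSubgroupIn ℚ, (∀ x ∈ L₀, σ x = x) → c σ = 0) :
    ∃ ω : GQ → ZMod p, Setup p P ζ ω c := by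
  have hp : p.Prime := Fact.out
  have : NeZero p := ⟨hp.ne_zero⟩
  obtain ⟨ω, hω⟩ := exists_omega (p := p) hζ hζ1
  refine ⟨ω, hp2, hP, hζ, hζ1, hω, fun σ hσ τ hτ => ?_, hlev⟩
  rw [hc σ hσ τ hτ (ω σ).val (hω σ), ← Nat.cast_smul_eq_nsmul (ZMod p), ZMod.natCast_zmod_val]

namespace Setup

variable {p : ℕ} [Fact p.Prime] {P : ValuationSubring Qb} {ζ : Qb} {L : Type*} [AddCommGroup L]
  [Module (ZMod p) L] {ω : GQ → ZMod p} {c : GQ → L} (S : Setup p P ζ ω c)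

include S

/-- The statement of the local-field layer, for a `Setup`. -/
theorem uniformiser_dichotomy [Finite L] :
    ∃ (s : ℕ) (w : Qb),
      w ∈ P ∧ (∀ σ ∈ S.stab, σ w = w) ∧
      (∃ u : Qb, IsPUnit P u ∧ w ^ ((p - 1) * p ^ s) = p * u) ∧
      (∀ x ∈ P, (∀ σ ∈ S.stab, σ x = x) →
        ∃ a : Fin ((p - 1) * p ^ s) → Qb,
          (∀ i, a i ∈ P ∧ ∀ σ ∈ P.inertiaSubgroupIn ℚ, σ (a i) = a i) ∧
          x = ∑ i, a i * w ^ (i : ℕ)) ∧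
      (∀ a : Qb, (∀ σ ∈ S.stab, σ a = a) → P.valuation a < 1 →
        P.valuation a ≤ P.valuation w) ∧
      (∃ ρ : Fin (p ^ s) → GQ, (∀ i, ρ i ∈ GF P ζ) ∧
        ∀ σ ∈ GF P ζ, ∃! i, c σ = c (ρ i)) ∧
      (∀ σ ∈ GF P ζ, P.valuation (σ w - w) ≤ P.valuation w ^ 2) ∧
      ((∀ σ ∈ GF P ζ, c σ ≠ 0 → P.valuation (σ w - w) = P.valuation w ^ 2) ∨
        (∃ σ₀ ∈ GF P ζ, c σ₀ ≠ 0 ∧ 1 ≤ s ∧
          P.valuation (σ₀ w - w) ≤ P.valuation w ^ (2 + (p - 1) * p ^ (s - 1)) ∧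
          ∀ σ ∈ GF P ζ, (∀ j : ℕ, c σ ≠ j • c σ₀) →
            P.valuation (σ w - w) = P.valuation w ^ 2)) := by
  classical
  have hp : p.Prime := Fact.out
  have : NeZero p := ⟨hp.ne_zero⟩
  obtain ⟨s, τ, w, T⟩ := S.exists_top
  refine ⟨s, w, T.w_mem, T.unif.fixH, ?_, ?_, ?_, ?_, ?_, ?_⟩
  · -- `w^n = p · unit`
    have hp0 : (p : Qb) ≠ 0 := p_ne_zero' hp
    refine ⟨w ^ ((p - 1) * p ^ s) / p, isPUnit_iff_val.2 ?_, by field_simp⟩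
    rw [map_div₀, map_pow, T.val_pow]
    exact div_self ((Valuation.ne_zero_iff _).2 hp0)
  · -- expansions
    intro x hxP hx
    obtain ⟨a, ha, hxa⟩ := Ctx.span T.ctx T.unif hxP hx
    exact ⟨a, fun i => ⟨(ha i).1, fun σ hσ => (ha i).2 σ ((mem_gf_neg_p p P σ).2 hσ)⟩, hxa⟩
  · -- `w` has the largest valuation `< 1`
    intro a ha hv
    obtain ⟨x', hx'P, -, rfl⟩ := Ctx.div_pi T.unif ha hv
    rw [map_mul]
    calc P.valuation w * P.valuation x' ≤ P.valuation w * 1 :=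
          mul_le_mul' le_rfl ((P.valuation_le_one_iff x').2 hx'P)
      _ = P.valuation w := mul_one _
  · -- representatives of `Γ = I₁ / H`
    have h0 : S.stab.relIndex (GF P ζ) ≠ 0 := by
      rw [T.hs]
      exact pow_ne_zero _ hp.ne_zero
    have hr := exists_reps S.stab (GF P ζ) h0
    rw [T.hs] at hr
    obtain ⟨ρ, hρ, hcos⟩ := hr
    have key : ∀ (i : Fin (p ^ s)) (σ : GQ), σ ∈ GF P ζ →
        ((ρ i)⁻¹ * σ ∈ S.stab ↔ c σ = c (ρ i)) := by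
      intro i σ hσ
      rw [S.mem_stab, S.c_mul_of_gf (inv_mem (hρ i)) hσ.1, S.c_inv_of_gf (hρ i)]
      constructor
      · rintro ⟨-, h⟩
        rw [neg_add_eq_zero] at h
        exact h.symm
      · intro h
        exact ⟨mul_mem (inv_mem (hρ i)) hσ, by rw [h, neg_add_cancel]⟩
    refine ⟨ρ, hρ, fun σ hσ => ?_⟩
    obtain ⟨i, hi, hiu⟩ := hcos σ hσ
    exact ⟨i, (key i σ hσ).1 hi, fun j hj => hiu j ((key j σ hσ).2 hj)⟩
  · -- wild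
    intro σ hσ
    exact S.val_apply_sub_le_sq' T hσ
  · -- the dichotomy
    by_cases hall : ∀ f : Module.Dual (ZMod p) L, Peu P ζ c f
    · left
      intro σ hσ hcσ
      have hex : ∃ f : Module.Dual (ZMod p) L, f (c σ) ≠ 0 := by
        by_contra hcon
        push Not at hcon
        exact hcσ ((Module.forall_dual_apply_eq_zero_iff (ZMod p) (c σ)).1 hcon)
      obtain ⟨f, hf⟩ := hex
      exact S.val_apply_sub_eq_sq T (hall f) hσ hf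
    · right
      push Not at hall
      obtain ⟨f₁, hf₁⟩ := hall
      rcases S.peu_or_tres f₁ with h | ⟨j, -, -, h₀⟩
      · exact absurd h hf₁
      · obtain ⟨σ₀, hσ₀, hf₀, hkill⟩ := S.exists_tres_line h₀
        obtain ⟨hs1, hle⟩ := S.val_apply_sub_le_tres T h₀ hσ₀ hf₀ hkill
        refine ⟨σ₀, hσ₀, ?_, hs1, hle, ?_⟩
        · intro h0
          rw [h0, map_zero] at hf₀
          exact hf₀ rfl
        · intro σ hσ hoff
          obtain ⟨f, hf, hfl⟩ := S.exists_peu_ne h₀ hf₀ hkill hoff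
          exact S.val_apply_sub_eq_sq T hf hσ hfl

end Setup

set_option linter.style.haveILetI false in
/-- **The local-field layer of (NC).**  `I = P.inertiaSubgroupIn ℚ`, `p` odd, `ζ` a primitive
`p`-th root of unity, `c : I → L` a twisted cocycle with values in a finite group killed by `p`,
trivial on an open subgroup.  `H := {σ ∈ I | σ ζ = ζ ∧ c σ = 0}`. -/
theorem exists_uniformiser_dichotomy (p : ℕ) [Fact p.Prime] (hp2 : p ≠ 2)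
    (P : ValuationSubring Qb) (hP : P.LiesOverPrime p) (ζ : Qb) (hζ : ζ ^ p = 1) (hζ1 : ζ ≠ 1)
    {L : Type*} [AddCommGroup L] [Finite L] (hL : ∀ l : L, p • l = 0) (c : GQ → L)
    (hc : ∀ σ ∈ P.inertiaSubgroupIn ℚ, ∀ τ ∈ P.inertiaSubgroupIn ℚ, ∀ j : ℕ, σ ζ = ζ ^ j →
      c (σ * τ) = c σ + j • c τ)
    (hlev : ∃ L₀ : IntermediateField ℚ Qb, FiniteDimensional ℚ L₀ ∧
      ∀ σ ∈ P.inertiaSubgroupIn ℚ, (∀ x ∈ L₀, σ x = x) → c σ = 0) :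
    ∃ (s : ℕ) (w : Qb),
      w ∈ P ∧
      (∀ σ ∈ P.inertiaSubgroupIn ℚ, σ ζ = ζ → c σ = 0 → σ w = w) ∧
      (∃ u : Qb, IsPUnit P u ∧ w ^ ((p - 1) * p ^ s) = p * u) ∧
      (∀ x ∈ P, (∀ σ ∈ P.inertiaSubgroupIn ℚ, σ ζ = ζ → c σ = 0 → σ x = x) →
        ∃ a : Fin ((p - 1) * p ^ s) → Qb,
          (∀ i, a i ∈ P ∧ ∀ σ ∈ P.inertiaSubgroupIn ℚ, σ (a i) = a i) ∧
          x = ∑ i, a i * w ^ (i : ℕ)) ∧
      (∀ a : Qb, (∀ σ ∈ P.inertiaSubgroupIn ℚ, σ ζ = ζ → c σ = 0 → σ a = a) →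
        P.valuation a < 1 → P.valuation a ≤ P.valuation w) ∧
      (∃ ρ : Fin (p ^ s) → GQ, (∀ i, ρ i ∈ P.inertiaSubgroupIn ℚ ∧ ρ i ζ = ζ) ∧
        ∀ σ ∈ P.inertiaSubgroupIn ℚ, σ ζ = ζ → ∃! i, c σ = c (ρ i)) ∧
      (∀ σ ∈ P.inertiaSubgroupIn ℚ, σ ζ = ζ → P.valuation (σ w - w) ≤ P.valuation w ^ 2) ∧
      ((∀ σ ∈ P.inertiaSubgroupIn ℚ, σ ζ = ζ → c σ ≠ 0 →
          P.valuation (σ w - w) = P.valuation w ^ 2) ∨
        (∃ σ₀ ∈ P.inertiaSubgroupIn ℚ, σ₀ ζ = ζ ∧ c σ₀ ≠ 0 ∧ 1 ≤ s ∧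
          P.valuation (σ₀ w - w) ≤ P.valuation w ^ (2 + (p - 1) * p ^ (s - 1)) ∧
          ∀ σ ∈ P.inertiaSubgroupIn ℚ, σ ζ = ζ → (∀ j : ℕ, c σ ≠ j • c σ₀) →
            P.valuation (σ w - w) = P.valuation w ^ 2)) := by
  letI : Module (ZMod p) L := AddCommGroup.zmodModule hL
  obtain ⟨ω, S⟩ := exists_setup p hp2 P hP ζ hζ hζ1 c hc hlev
  obtain ⟨s, w, hwP, hwH, hu, hexp, hmax, ⟨ρ, hρ, hρu⟩, hwild, hdich⟩ := S.uniformiser_dichotomy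
  have hfix : ∀ x : Qb, (∀ σ ∈ P.inertiaSubgroupIn ℚ, σ ζ = ζ → c σ = 0 → σ x = x) →
      ∀ σ ∈ S.stab, σ x = x := fun x hx σ hσ => hx σ hσ.1.1 hσ.1.2 hσ.2
  refine ⟨s, w, hwP, fun σ hσ hσζ hcσ => hwH σ ⟨⟨hσ, hσζ⟩, hcσ⟩, hu,
    fun x hxP hx => hexp x hxP (hfix x hx), fun a ha hv => hmax a (hfix a ha) hv,
    ⟨ρ, fun i => ⟨(hρ i).1, (hρ i).2⟩, fun σ hσ hσζ => hρu σ ⟨hσ, hσζ⟩⟩,
    fun σ hσ hσζ => hwild σ ⟨hσ, hσζ⟩, ?_⟩
  rcases hdich with h | ⟨σ₀, hσ₀, hcσ₀, hs1, hle, hoff⟩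
  · exact Or.inl fun σ hσ hσζ hcσ => h σ ⟨hσ, hσζ⟩ hcσ
  · exact Or.inr ⟨σ₀, hσ₀.1, hσ₀.2, hcσ₀, hs1, hle,
      fun σ hσ hσζ hl => hoff σ ⟨hσ, hσζ⟩ hl⟩

end Fermat.Agent.Padic.S33.LocKum
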