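import Mathlib
import Fermat.Agent.CAR.K0.Gal
import Fermat.Agent.TW.Flat.Defs

/-!
# S33 / (NC) / (K3): the Galois-correspondence brick of the local Kummer layer

`G ≤ G_ℚ` a closed subgroup (in the application `G = I_1 = inertiaCyc P p`, the inertia elements
fixing `μ_p`), `S` a set of elements of `ℚ̄` (the Kummer generators `b_f`).

* `mem_adjoin_of_fixed` : an element fixed by `{σ ∈ G | σ b = b ∀ b ∈ S}` lies in the field
  generated over `ℚ` by `ℚ̄^G ∪ S` (`IntermediateField.adjoin` form),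
  `mem_closure_of_fixed` is the `Subfield.closure` form.
* `isClosed_inertiaCyc` : `I_1` is closed in the Krull topology;
  `mem_adjoin_of_fixed_inertiaCyc` is the specialisation.
* `exists_dual`, `exists_dual_hom` : dual elements `σ_i` for `F_p`-independent additive characters.
-/

set_option autoImplicit false
set_option linter.style.haveILetI false

namespace Fermat.Agent.Padic.S33.KFix

open Fermat.Agent.S53 Fermat.Agent.TW.Flat

local notation "Qb" => AlgebraicClosure ℚ

open Fermat.Agent.Lib.GalQbar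

attribute [local instance] isAlgClosure_rat isGalois_rat Fermat.Agent.Lib.GalQbar.isAlgebraic_rat

/-- **(K3), field form.** Let `G` be a closed subgroup of `G_ℚ` and `S ⊆ ℚ̄`. An element fixed by
every `σ ∈ G` fixing `S` pointwise lies in the field generated by `ℚ̄^G` and `S`. -/
theorem mem_adjoin_of_fixed (G : Subgroup GQ) (hG : IsClosed (G : Set GQ)) (S : Set Qb) (x : Qb)
    (hx : ∀ σ ∈ G, (∀ b ∈ S, σ b = b) → σ x = x) :
    x ∈ IntermediateField.adjoin ℚ ({y : Qb | ∀ σ ∈ G, σ y = y} ∪ S) := by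
  set F : IntermediateField ℚ Qb :=
    IntermediateField.adjoin ℚ ({y : Qb | ∀ σ ∈ G, σ y = y} ∪ S) with hF
  have hfix : IntermediateField.fixedField F.fixingSubgroup = F :=
    InfiniteGalois.fixedField_fixingSubgroup F
  rw [← hfix, IntermediateField.mem_fixedField_iff]
  intro σ hσ
  rw [IntermediateField.mem_fixingSubgroup_iff] at hσ
  have hσG : σ ∈ G := by
    have h1 : (IntermediateField.fixedField G).fixingSubgroup = G :=
      InfiniteGalois.fixingSubgroup_fixedField (⟨G, hG⟩ : ClosedSubgroup GQ)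
    rw [← h1, IntermediateField.mem_fixingSubgroup_iff]
    intro y hy
    rw [IntermediateField.mem_fixedField_iff] at hy
    exact hσ y (IntermediateField.subset_adjoin ℚ _ (Or.inl hy))
  exact hx σ hσG fun b hb => hσ b (IntermediateField.subset_adjoin ℚ _ (Or.inr hb))

/-- **(K3), `Subfield.closure` form.** -/
theorem mem_closure_of_fixed (G : Subgroup GQ) (hG : IsClosed (G : Set GQ)) (S : Set Qb) (x : Qb)
    (hx : ∀ σ ∈ G, (∀ b ∈ S, σ b = b) → σ x = x) :
    x ∈ Subfield.closure ({y : Qb | ∀ σ ∈ G, σ y = y} ∪ S) := by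
  have h := mem_adjoin_of_fixed G hG S x hx
  have hle : (IntermediateField.adjoin ℚ ({y : Qb | ∀ σ ∈ G, σ y = y} ∪ S)).toSubfield
      ≤ Subfield.closure ({y : Qb | ∀ σ ∈ G, σ y = y} ∪ S) := by
    rw [IntermediateField.adjoin_toSubfield]
    refine Subfield.closure_le.2 ?_
    rintro y (⟨q, rfl⟩ | hy)
    · exact Subfield.subset_closure (Or.inl fun σ _ => σ.commutes q)
    · exact Subfield.subset_closure hy
  exact hle h

/-- The converse: elements of the field generated by `ℚ̄^G` and `S` are fixed by every `σ ∈ G`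
fixing `S` pointwise. -/
theorem fixed_of_mem_adjoin (G : Subgroup GQ) (S : Set Qb) {x : Qb}
    (hx : x ∈ IntermediateField.adjoin ℚ ({y : Qb | ∀ σ ∈ G, σ y = y} ∪ S)) {σ : GQ}
    (hσ : σ ∈ G) (hS : ∀ b ∈ S, σ b = b) : σ x = x := by
  have hle : IntermediateField.adjoin ℚ ({y : Qb | ∀ σ ∈ G, σ y = y} ∪ S)
      ≤ IntermediateField.fixedField (Subgroup.zpowers σ) := by
    rw [IntermediateField.adjoin_le_iff]
    rintro y (hy | hy)
    · rw [SetLike.mem_coe, IntermediateField.mem_fixedField_iff]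
      rintro τ ⟨n, rfl⟩
      have h1 : σ y = y := hy σ hσ
      have h2 : (σ ^ n) y = y := by
        have hmem : σ ∈ MulAction.stabilizer GQ y := MulAction.mem_stabilizer_iff.2 h1
        exact MulAction.mem_stabilizer_iff.1 (zpow_mem hmem n)
      exact h2
    · rw [SetLike.mem_coe, IntermediateField.mem_fixedField_iff]
      rintro τ ⟨n, rfl⟩
      have h1 : σ y = y := hS y hy
      have hmem : σ ∈ MulAction.stabilizer GQ y := MulAction.mem_stabilizer_iff.2 h1
      exact MulAction.mem_stabilizer_iff.1 (zpow_mem hmem n)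
  have := hle hx
  rw [IntermediateField.mem_fixedField_iff] at this
  exact this σ (Subgroup.mem_zpowers σ)

/-- `I_1 = inertiaCyc P p` (inertia elements fixing the `p`-th roots of unity) is closed. -/
theorem isClosed_inertiaCyc (P : ValuationSubring Qb) (p : ℕ) :
    IsClosed (inertiaCyc P p : Set GQ) := by
  have hset : (inertiaCyc P p : Set GQ)
      = (P.inertiaSubgroupIn ℚ : Set GQ)
        ∩ (⋂ ζ ∈ {ζ : Qb | ζ ^ p = 1}, {σ : GQ | σ ζ ∈ ({ζ} : Set Qb)}) := by
    ext σ
    simp only [SetLike.mem_coe, Set.mem_inter_iff, Set.mem_iInter, Set.mem_ofPred_eq,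
      Set.mem_singleton_iff]
    exact mem_inertiaCyc P p σ
  rw [hset]
  exact (Fermat.Agent.CAR.K0.isClosed_inertia P).inter
    (isClosed_biInter fun ζ _ => Fermat.Agent.PT.G.isClosed_setOf_apply_mem ζ _)

/-- `Gal(ℚ̄ / ℚ̄^{I_1}) = I_1`. -/
theorem fixingSubgroup_fixedField_inertiaCyc (P : ValuationSubring Qb) (p : ℕ) :
    (IntermediateField.fixedField (inertiaCyc P p)).fixingSubgroup = inertiaCyc P p :=
  InfiniteGalois.fixingSubgroup_fixedField
    (⟨inertiaCyc P p, isClosed_inertiaCyc P p⟩ : ClosedSubgroup GQ)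

/-- **(K3) for `I_1`.** With `K_1 = ℚ̄^{I_1}` and `H = {σ ∈ I_1 | σ b = b ∀ b ∈ S}`:
`ℚ̄^H ⊆ K_1(S)`. -/
theorem mem_adjoin_of_fixed_inertiaCyc (P : ValuationSubring Qb) (p : ℕ) (S : Set Qb) (x : Qb)
    (hx : ∀ σ ∈ inertiaCyc P p, (∀ b ∈ S, σ b = b) → σ x = x) :
    x ∈ IntermediateField.adjoin ℚ ({y : Qb | ∀ σ ∈ inertiaCyc P p, σ y = y} ∪ S) :=
  mem_adjoin_of_fixed _ (isClosed_inertiaCyc P p) S x hx

/-- **(K3) for `I_1`, Kummer form.** `b i ≠ 0` are Kummer generators with characters `κ i` on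
`I_1` (`σ (b i) = ζ ^ κ i σ * b i`); an element fixed by the common kernel of the `κ i` in `I_1`
lies in `K_1(b_1, …)`. -/
theorem mem_adjoin_of_fixed_kummer (P : ValuationSubring Qb) (p : ℕ) {ι : Type*}
    (ζ : Qb) (b : ι → Qb) (hb0 : ∀ i, b i ≠ 0) (κ : ι → GQ → ℕ)
    (hb : ∀ i, ∀ σ ∈ inertiaCyc P p, σ (b i) = ζ ^ κ i σ * b i) (x : Qb)
    (hx : ∀ σ ∈ inertiaCyc P p, (∀ i, ζ ^ κ i σ = 1) → σ x = x) :
    x ∈ IntermediateField.adjoin ℚ
      ({y : Qb | ∀ σ ∈ inertiaCyc P p, σ y = y} ∪ Set.range b) := by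
  refine mem_adjoin_of_fixed_inertiaCyc P p _ x fun σ hσ hS => hx σ hσ fun i => ?_
  have h1 := hS (b i) ⟨i, rfl⟩
  rw [hb i σ hσ] at h1
  exact mul_right_cancel₀ (hb0 i) (h1.trans (one_mul _).symm)

/-! ### Dual elements -/

section Dual

variable {p : ℕ} [Fact p.Prime]

/-- **Dual elements.** `F_p`-independent additive characters `κ i : G → ZMod p` of a group `G`
admit dual elements `σ i ∈ G`: `κ j (σ i) = δ_ij`. -/
theorem exists_dual {G : Type*} [Group G] {ι : Type*} [Fintype ι] [DecidableEq ι]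
    (κ : ι → G → ZMod p) (hκ : ∀ i σ τ, κ i (σ * τ) = κ i σ + κ i τ)
    (hind : ∀ a : ι → ZMod p, (∀ σ, ∑ i, a i * κ i σ = 0) → a = 0) :
    ∃ σ : ι → G, ∀ i j, κ j (σ i) = if i = j then 1 else 0 := by
  classical
  have hκ1 : ∀ i, κ i 1 = 0 := fun i => by
    have := hκ i 1 1
    rw [mul_one] at this
    exact left_eq_add.mp this
  have hκinv : ∀ i σ, κ i σ⁻¹ = - κ i σ := fun i σ => by
    have := hκ i σ σ⁻¹
    rw [mul_inv_cancel, hκ1] at this
    exact eq_neg_of_add_eq_zero_right this.symm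
  -- the image of `G` in `ι → ZMod p`
  let W : AddSubgroup (ι → ZMod p) :=
    { carrier := Set.range fun σ : G => fun i => κ i σ
      add_mem' := by
        rintro _ _ ⟨σ, rfl⟩ ⟨τ, rfl⟩
        exact ⟨σ * τ, funext fun i => hκ i σ τ⟩
      zero_mem' := ⟨1, funext fun i => hκ1 i⟩
      neg_mem' := by
        rintro _ ⟨σ, rfl⟩
        exact ⟨σ⁻¹, funext fun i => hκinv i σ⟩ }
  let W' : Submodule (ZMod p) (ι → ZMod p) := AddSubgroup.toZModSubmodule p W
  have hW' : ∀ w, w ∈ W' ↔ ∃ σ : G, (fun i => κ i σ) = w := fun w => Iff.rfl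
  have htop : W' = ⊤ := by
    by_contra hne
    obtain ⟨f, hf0, hf⟩ := Submodule.exists_le_ker_of_lt_top W' (lt_top_iff_ne_top.2 hne)
    apply hf0
    have ha : (fun i => f (Pi.single i 1)) = 0 := by
      apply hind
      intro σ
      have h1 : f (fun i => κ i σ) = 0 := hf ((hW' _).2 ⟨σ, rfl⟩)
      rw [LinearMap.pi_apply_eq_sum_univ] at h1
      rw [← h1]
      refine Finset.sum_congr rfl fun i _ => ?_
      rw [smul_eq_mul, mul_comm]
      congr 2
      funext j
      by_cases hij : j = i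
      · subst hij; simp
      · rw [Pi.single_eq_of_ne hij, if_neg (fun h => hij h.symm)]
    apply LinearMap.pi_ext
    intro i x
    have h2 : f (Pi.single i 1) = 0 := congrFun ha i
    have h3 : (Pi.single i x : ι → ZMod p) = x • Pi.single i 1 := by
      rw [← Pi.single_smul, smul_eq_mul, mul_one]
    rw [h3, map_smul, h2, smul_zero, LinearMap.zero_apply]
  have hall : ∀ i : ι, ∃ σ : G, (fun j => κ j σ) = Pi.single i 1 := fun i =>
    (hW' _).1 (htop ▸ Submodule.mem_top)
  choose σ hσ using hall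
  refine ⟨σ, fun i j => ?_⟩
  have := congrFun (hσ i) j
  rw [this]
  by_cases hij : i = j
  · subst hij; simp
  · rw [Pi.single_eq_of_ne (fun h => hij h.symm), if_neg hij]

/-- Dual elements inside a subgroup `H ≤ G` (e.g. `H = I_1 ≤ G_ℚ`), for characters defined on the
ambient group as plain functions, additive on `H`. -/
theorem exists_dual_subgroup {G : Type*} [Group G] (H : Subgroup G) {ι : Type*} [Fintype ι]
    [DecidableEq ι] (κ : ι → G → ZMod p)
    (hκ : ∀ i, ∀ σ ∈ H, ∀ τ ∈ H, κ i (σ * τ) = κ i σ + κ i τ)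
    (hind : ∀ a : ι → ZMod p, (∀ σ ∈ H, ∑ i, a i * κ i σ = 0) → a = 0) :
    ∃ σ : ι → G, (∀ i, σ i ∈ H) ∧ ∀ i j, κ j (σ i) = if i = j then 1 else 0 := by
  obtain ⟨σ, hσ⟩ := exists_dual (G := H) (fun i (s : H) => κ i (s : G))
    (fun i s t => hκ i s s.2 t t.2) (fun a ha => hind a fun s hs => ha ⟨s, hs⟩)
  exact ⟨fun i => (σ i : G), fun i => (σ i).2, hσ⟩

end Dual

end Fermat.Agent.Padic.S33.KFix
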