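/-
S33 / (NC), local-field layer, part 3: group-theoretic and linear-algebraic generalities.

* `exists_reps` : coset representatives `τ : Fin (H.relIndex K) → G` of `H` in `K`;
* `relIndex_ne_zero_of_open` : a subgroup containing `I ∩ Gal(Qb/L₀)` (`L₀/ℚ` finite) has finite
  index in `I`;
* `exists_kill_of_codim_one` : a subspace `D` of the dual with `Dual = D + K·f₀`, `f₀ ∉ D` modulo
  the annihilator of `V₁`, is killed by some `l₀ ∈ V₁` with `f₀ l₀ ≠ 0`.
-/
import Mathlib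
import Fermat.Agent.S53.Defs
import Fermat.Agent.Lib.GalQbar

set_option autoImplicit false

namespace Fermat.Agent.Padic.S33.LocKum

open Fermat.Agent.S53

local notation "Qb" => AlgebraicClosure ℚ

/-- Coset representatives of `H` in `K`, indexed by `Fin (H.relIndex K)`. -/
theorem exists_reps {G : Type*} [Group G] (H K : Subgroup G) (h : H.relIndex K ≠ 0) :
    ∃ τ : Fin (H.relIndex K) → G, (∀ i, τ i ∈ K) ∧ ∀ σ ∈ K, ∃! i, (τ i)⁻¹ * σ ∈ H := by
  classical
  have hfin : Finite (↥K ⧸ H.subgroupOf K) := Nat.finite_of_card_ne_zero h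
  have e : (↥K ⧸ H.subgroupOf K) ≃ Fin (H.relIndex K) := Finite.equivFinOfCardEq rfl
  refine ⟨fun i => ((e.symm i).out : ↥K), fun i => (e.symm i).out.2, fun σ hσ => ?_⟩
  refine ⟨e (QuotientGroup.mk ⟨σ, hσ⟩), ?_, ?_⟩
  · simp only [Equiv.symm_apply_apply]
    have h1 : (QuotientGroup.mk (QuotientGroup.mk ⟨σ, hσ⟩ : ↥K ⧸ H.subgroupOf K).out :
        ↥K ⧸ H.subgroupOf K) = QuotientGroup.mk ⟨σ, hσ⟩ := QuotientGroup.out_eq' _
    rw [QuotientGroup.eq] at h1
    exact h1
  · intro j hj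
    have h1 : (QuotientGroup.mk ((e.symm j).out) : ↥K ⧸ H.subgroupOf K) =
        QuotientGroup.mk ⟨σ, hσ⟩ := by
      rw [QuotientGroup.eq]
      exact hj
    rw [QuotientGroup.out_eq'] at h1
    rw [← h1, Equiv.apply_symm_apply]

attribute [local instance] Fermat.Agent.Lib.GalQbar.isAlgClosure_rat
  Fermat.Agent.Lib.GalQbar.isGalois_rat Fermat.Agent.Lib.GalQbar.isAlgebraic_rat
  Fermat.Agent.Lib.GalQbar.normal_rat

theorem relIndex_ne_zero_of_normal {k K : Type*} [Field k] [Field K] [Algebra k K]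
    (I H : Subgroup (K ≃ₐ[k] K)) (N : IntermediateField k K)
    [FiniteDimensional k N] [Normal k N]
    (hN : ∀ σ ∈ I, (∀ x ∈ N, σ x = x) → σ ∈ H) : H.relIndex I ≠ 0 := by
  classical
  let res : (K ≃ₐ[k] K) →* (N ≃ₐ[k] N) := AlgEquiv.restrictNormalHom N
  have hres : ∀ (σ : K ≃ₐ[k] K) (y : N), σ (algebraMap N K y) = algebraMap N K (res σ y) :=
    fun σ y => (AlgEquiv.restrictNormal_commutes σ N y).symm
  have hker : ∀ σ σ' : ↥I, res σ = res σ' →
      (QuotientGroup.mk σ : ↥I ⧸ H.subgroupOf I) = QuotientGroup.mk σ' := by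
    intro σ σ' hσσ'
    rw [QuotientGroup.eq]
    show ((σ⁻¹ * σ' : ↥I) : K ≃ₐ[k] K) ∈ H
    refine hN _ (σ⁻¹ * σ').2 fun x hx => ?_
    have h1 : res ((σ⁻¹ * σ' : ↥I) : K ≃ₐ[k] K) = 1 := by
      push_cast
      rw [map_mul, map_inv, hσσ', inv_mul_cancel]
    have h2 := hres ((σ⁻¹ * σ' : ↥I) : K ≃ₐ[k] K) ⟨x, hx⟩
    rw [h1] at h2
    exact h2
  have hF : Finite (↥I ⧸ H.subgroupOf I) := by
    let f : Set.range (fun σ : ↥I => res σ) → ↥I ⧸ H.subgroupOf I :=
      fun g => QuotientGroup.mk (Classical.choose g.2)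
    refine Finite.of_surjective f fun q => ?_
    induction q using QuotientGroup.induction_on with
    | H σ =>
      refine ⟨⟨res σ, σ, rfl⟩, ?_⟩
      exact hker _ _ (Classical.choose_spec (⟨σ, rfl⟩ : ∃ σ' : ↥I, res σ' = res σ))
  have : (H.subgroupOf I).FiniteIndex := Subgroup.finiteIndex_of_finite_quotient
  exact Subgroup.FiniteIndex.index_ne_zero

/-- A subgroup containing `I ∩ Gal(Qb/L₀)` for a finite extension `L₀/ℚ` has finite index
in `I`. -/
theorem relIndex_ne_zero_of_open (I H : Subgroup GQ)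
    (hopen : ∃ L₀ : IntermediateField ℚ Qb, FiniteDimensional ℚ L₀ ∧
      ∀ σ ∈ I, (∀ x ∈ L₀, σ x = x) → σ ∈ H) : H.relIndex I ≠ 0 := by
  obtain ⟨L₀, hfin, hL₀⟩ := hopen
  exact relIndex_ne_zero_of_normal I H (IntermediateField.normalClosure ℚ L₀ Qb)
    fun σ hσ hx => hL₀ σ hσ fun x hx' => hx x (IntermediateField.le_normalClosure L₀ hx')

/-- A hyperplane of functionals is the annihilator of a line. -/
theorem exists_kill_of_codim_one {K V : Type*} [Field K] [AddCommGroup V] [Module K V]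
    [FiniteDimensional K V] (D : Submodule K (Module.Dual K V)) (V₁ : Submodule K V)
    (f₀ : Module.Dual K V)
    (hcov : ∀ f : Module.Dual K V, f ∈ D ∨ ∃ j : K, j ≠ 0 ∧ j • f - f₀ ∈ D)
    (hnot : ¬ ∃ f' ∈ D, ∀ l ∈ V₁, f₀ l = f' l) :
    ∃ l₀ ∈ V₁, f₀ l₀ ≠ 0 ∧ ∀ f ∈ D, f l₀ = 0 := by
  by_contra hcon
  push Not at hcon
  let Φ : Submodule K (Module.Dual K V) :=
    { carrier := {f | ∃ f' ∈ D, ∀ l ∈ V₁, f l = f' l}
      add_mem' := by
        rintro f g ⟨f', hf', hf⟩ ⟨g', hg', hg⟩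
        exact ⟨f' + g', D.add_mem hf' hg', fun l hl => by
          rw [LinearMap.add_apply, LinearMap.add_apply, hf l hl, hg l hl]⟩
      zero_mem' := ⟨0, D.zero_mem, fun _ _ => rfl⟩
      smul_mem' := by
        rintro a f ⟨f', hf', hf⟩
        exact ⟨a • f', D.smul_mem a hf', fun l hl => by
          rw [LinearMap.smul_apply, LinearMap.smul_apply, hf l hl]⟩ }
  have hco : Φ.dualCoannihilator = ⊥ := by
    rw [eq_bot_iff]
    intro l hl
    rw [Submodule.mem_dualCoannihilator] at hl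
    have hlV : l ∈ V₁ := by
      rw [← Subspace.forall_mem_dualAnnihilator_apply_eq_zero_iff]
      intro φ hφ
      refine hl φ ⟨0, D.zero_mem, fun x hx => ?_⟩
      rw [LinearMap.zero_apply]
      exact (Submodule.mem_dualAnnihilator φ).1 hφ x hx
    have hlD : ∀ f ∈ D, f l = 0 := fun f hf => hl f ⟨f, hf, fun _ _ => rfl⟩
    have hf₀ : f₀ l = 0 := by
      by_contra h
      exact absurd (hcon l hlV h) (by push Not; exact hlD)
    rw [Submodule.mem_bot, ← Module.forall_dual_apply_eq_zero_iff K]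
    intro f
    rcases hcov f with hf | ⟨j, hj, hjf⟩
    · exact hlD f hf
    · have h1 := hlD _ hjf
      rw [LinearMap.sub_apply, LinearMap.smul_apply, hf₀, sub_zero, smul_eq_mul] at h1
      exact (mul_eq_zero.1 h1).resolve_left hj
  have hΦ : Φ = ⊤ := by
    rw [← Subspace.dualCoannihilator_dualAnnihilator_eq (W := Φ), hco,
      Submodule.dualAnnihilator_bot]
  have hf₀Φ : f₀ ∈ Φ := by rw [hΦ]; exact Submodule.mem_top
  exact hnot hf₀Φ

end Fermat.Agent.Padic.S33.LocKum
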